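import Fermat.Agent.S56.FD.Defs

/-!
# S56 / FD / Apx      keys [S56/FD-APX1] (the 7 small lemmas + term_GE, coeff_GE), [S56/FD-APX2] (exists_unif, Unif.apx)

API: `S05/Defs` (RVal: GE GT EQ calculus), `S55/B/Res` (`GE_sum`, `GE_of_sum_of_distinct`), `S33/Val/Cyc` (`w_int_of_fixed`, `w_of_relIndex`, `exists_fixed_congr`), `S55/B/Padic` (`wq_q`, `pres_Dq`, `Iq_le_Dq`).
* `w_O0`: `w_int_of_fixed` gives `k : ℤ`; `0 ≤ k` from `GE`.
* `ev_eq_sum`: `Polynomial.eval₂_eq_sum_range`.    `ev_GE`: `GE_sum`, `GE.mul`, `GE.pow`.    `ev_mem_Fx`: `Fx H` is a subfield containing `O0` (`hH`).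
* `term_GE`: `GE_of_sum_of_distinct` on `Finset.range (natDegree + 1)`:  `w (c i ϖ^i) = k_i + i/E`, `k_i ∈ ℕ`, `i < E`: equal valuations ⟹ `(i - j)/E ∈ ℤ`, `|i - j| < E` ⟹ `i = j`.   For `i > natDegree` the coefficient is `0`.
* `coeff_GE`: `w (c i) + i/E ≥ M`, `i < E` ⟹ `w (c i) > M - 1`, integer ⟹ `≥ M`.
* `exists_unif`: `n := H.relIndex (Iq p)`;  `n * w a ∈ ℤ` on `Fx H` (`w_of_relIndex`).   The set `{k : ℕ | 0 < k ∧ ∃ a ∈ Fx H, a ≠ 0 ∧ n * w a = k}` contains `n` (`a = p`); let `k0` be its minimum (`Nat.find`), attained by `ϖ`.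
   Every `a ∈ Fx H`, `a ≠ 0` has `n * w a = k`, `k = k0 * d + r`, `0 ≤ r < k0` (`Int.emod`): `a / ϖ^d` (zpow) has `n * w = r`, so `r = 0` by minimality.   For `a = p`: `n = k0 * E`.  So `w ϖ = k0 / n = 1/E`, `w a = d/E`.
* `Unif.apx`: by induction on `j : ℕ`:  `∃ f, natDegree f < E ∧ GE (y - ev f ϖ) (j / E)`;  then take `j = M * E`.
   Step: `r := y - ev f ϖ ∈ Fx H`.  `j = a E + b`, `b < E`, `m := p^a ϖ^b` (`w m = j/E`, `m ∈ Fx H`).   `r / m ∈ Fx H` is integral;  `exists_fixed_congr`: `c ∈ O0` with `GT (r/m - c) 0`;  `r/m - c ∈ Fx H` so its valuation is `≥ 1/E` (`h.val`: `k/E > 0 ⟹ k ≥ 1`).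
   `f' := f + C (c * p^a) * X^b`  (`natDegree < E`: `natDegree_add_le`, `natDegree_C_mul_X_pow_le`),  `y - ev f' ϖ = m (r/m - c)`.
-/

set_option autoImplicit false

noncomputable section

namespace Fermat.Agent.S56.FD

open Fermat.Agent.S05 Fermat.Agent.S55 Fermat.Agent.S55.B ExtCitation Polynomial

variable {p : Nat.Primes} {H : Subgroup GQ} {ϖ : Qb} {E : ℕ}

theorem w_O0 (c : O0 p) (hc : (c : Qb) ≠ 0) : ∃ k : ℕ, (wq p).w (c : Qb) = k := by
  obtain ⟨k, hk⟩ := S33.w_int_of_fixed p c.2.2 hc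
  have h0 := c.2.1.le_w hc
  rw [hk] at h0
  have h1 : (0 : ℤ) ≤ k := by exact_mod_cast h0
  refine ⟨k.toNat, ?_⟩
  rw [hk]
  have : ((k.toNat : ℤ) : ℝ) = (k : ℝ) := by rw [Int.toNat_of_nonneg h1]
  exact_mod_cast this.symm

theorem ev_eq_sum (f : (O0 p)[X]) (z : Qb) :
    ev f z = ∑ i ∈ Finset.range (f.natDegree + 1), (f.coeff i : Qb) * z ^ i :=
  eval₂_eq_sum_range _ _

theorem ev_add (f g : (O0 p)[X]) (z : Qb) : ev (f + g) z = ev f z + ev g z := eval₂_add _ _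

theorem ev_sub (f g : (O0 p)[X]) (z : Qb) : ev (f - g) z = ev f z - ev g z := eval₂_sub _

theorem ev_mul (f g : (O0 p)[X]) (z : Qb) : ev (f * g) z = ev f z * ev g z := eval₂_mul _ _

theorem ev_pow (f : (O0 p)[X]) (n : ℕ) (z : Qb) : ev (f ^ n) z = ev f z ^ n := eval₂_pow _ _ _

theorem ev_C (c : O0 p) (z : Qb) : ev (C c) z = c := eval₂_C _ _

theorem ev_X (z : Qb) : ev (X : (O0 p)[X]) z = z := eval₂_X _ _

theorem ev_GE (f : (O0 p)[X]) {z : Qb} (hz : (wq p).GE z 0) : (wq p).GE (ev f z) 0 := by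
  rw [ev_eq_sum]
  exact GE_sum _ _ _ _ fun i _ => by simpa using (f.coeff i).2.1.mul (hz.pow i)

theorem O0_mem_Fx (hH : H ≤ Iq p) (c : O0 p) : (c : Qb) ∈ Fx H :=
  mem_Fx.2 fun σ hσ => c.2.2 σ (hH hσ)

theorem ev_mem_Fx (hH : H ≤ Iq p) (f : (O0 p)[X]) {z : Qb} (hz : z ∈ Fx H) : ev f z ∈ Fx H := by
  rw [ev_eq_sum]
  exact sum_mem fun i _ => mul_mem (O0_mem_Fx hH _) (pow_mem hz i)

theorem apxAux_pow_sub {z z' : Qb} (hz : (wq p).GE z 0) (hz' : (wq p).GE z' 0) {a : ℝ}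
    (h : (wq p).GE (z - z') a) (n : ℕ) : (wq p).GE (z ^ n - z' ^ n) a := by
  induction n with
  | zero => simpa using RVal.GE_zero a
  | succ n ih =>
    have e : z ^ (n + 1) - z' ^ (n + 1) = z ^ n * (z - z') + (z ^ n - z' ^ n) * z' := by ring
    rw [e]
    have h1 := (hz.pow n).mul h
    have h2 := ih.mul hz'
    exact (h1.mono (by simp)).add (h2.mono (by simp))

/-- `f(z) - f(z')` is divisible by `z - z'` -/
theorem ev_sub_GE (f : (O0 p)[X]) {z z' : Qb} (hz : (wq p).GE z 0) (hz' : (wq p).GE z' 0) {a : ℝ}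
    (h : (wq p).GE (z - z') a) : (wq p).GE (ev f z - ev f z') a := by
  rw [ev_eq_sum, ev_eq_sum, ← Finset.sum_sub_distrib]
  refine GE_sum _ _ _ _ fun i _ => ?_
  rw [← mul_sub]
  simpa using (f.coeff i).2.1.mul (apxAux_pow_sub hz hz' h i)

/-- the terms of `f(ϖ)`, `deg f < E`, have pairwise distinct valuations -/
theorem term_GE (hE : 0 < E) (hw : (wq p).EQ ϖ (1 / (E : ℝ))) (f : (O0 p)[X]) (hf : f.natDegree < E)
    {a : ℝ} (h : (wq p).GE (ev f ϖ) a) (i : ℕ) : (wq p).GE ((f.coeff i : Qb) * ϖ ^ i) a := by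
  by_cases hi : i ∈ Finset.range (f.natDegree + 1)
  · rw [ev_eq_sum] at h
    refine GE_of_sum_of_distinct (wq p) _ _ ?_ h i hi
    intro i hi j hj hi0 hj0 hij
    rw [Finset.mem_range] at hi hj
    have hci : ((f.coeff i : O0 p) : Qb) ≠ 0 := left_ne_zero_of_mul hi0
    have hcj : ((f.coeff j : O0 p) : Qb) ≠ 0 := left_ne_zero_of_mul hj0
    obtain ⟨ki, hki⟩ := w_O0 _ hci
    obtain ⟨kj, hkj⟩ := w_O0 _ hcj
    rw [(wq p).map_mul _ _ hci (pow_ne_zero _ hw.1), (wq p).map_mul _ _ hcj (pow_ne_zero _ hw.1),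
      RVal.w_pow hw.1, RVal.w_pow hw.1, hw.2, hki, hkj] at hij
    have hE' : (E : ℝ) ≠ 0 := by exact_mod_cast hE.ne'
    have h1 : (ki : ℝ) * E + i = kj * E + j := by
      field_simp at hij
      linarith
    have h2 : ki * E + i = kj * E + j := by exact_mod_cast h1
    have hiE : i < E := by omega
    have hjE : j < E := by omega
    have h3 := congrArg (· % E) h2
    simp only [Nat.mul_add_mod_self_right, Nat.mod_eq_of_lt hiE, Nat.mod_eq_of_lt hjE] at h3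
    exact h3
  · rw [Finset.mem_range, not_lt] at hi
    rw [coeff_eq_zero_of_natDegree_lt (by omega)]
    simpa using RVal.GE_zero a

theorem coeff_GE (hE : 0 < E) (hw : (wq p).EQ ϖ (1 / (E : ℝ))) (f : (O0 p)[X]) (hf : f.natDegree < E)
    {M : ℕ} (h : (wq p).GE (ev f ϖ) M) (i : ℕ) : (wq p).GE (f.coeff i : Qb) M := by
  by_cases hc : ((f.coeff i : O0 p) : Qb) = 0
  · exact Or.inl hc
  have hiE : i < E := by
    by_contra hcon
    apply hc
    rw [coeff_eq_zero_of_natDegree_lt (by omega)]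
    rfl
  obtain ⟨k, hk⟩ := w_O0 _ hc
  have h1 := (term_GE hE hw f hf h i).le_w (mul_ne_zero hc (pow_ne_zero _ hw.1))
  rw [(wq p).map_mul _ _ hc (pow_ne_zero _ hw.1), RVal.w_pow hw.1, hw.2, hk] at h1
  refine Or.inr ?_
  rw [hk]
  have hE' : (0 : ℝ) < E := by exact_mod_cast hE
  have h2 : (i : ℝ) * (1 / E) < 1 := by
    rw [mul_one_div, div_lt_one hE']
    exact_mod_cast hiE
  have h3 : (M : ℝ) < k + 1 := by linarith
  have h4 : M < k + 1 := by exact_mod_cast h3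
  exact_mod_cast (Nat.lt_succ_iff.1 h4)

theorem exists_unif (hH : H ≤ Iq p) (hfin : H.relIndex (Iq p) ≠ 0) : ∃ ϖ E, Unif p H ϖ E := by
  classical
  set n := H.relIndex (Iq p) with hn
  have hn0 : (0 : ℝ) < n := by exact_mod_cast Nat.pos_of_ne_zero hfin
  have hex : ∃ k : ℕ, 0 < k ∧ ∃ a ∈ Fx H, a ≠ 0 ∧ (n : ℝ) * (wq p).w a = k :=
    ⟨n, Nat.pos_of_ne_zero hfin, ((p : ℕ) : Qb), natCast_mem _ _, q_ne_zero p, by rw [wq_q, mul_one]⟩
  obtain ⟨hk0, ϖ, hϖ, hϖ0, hϖw⟩ := Nat.find_spec hex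
  set k0 := Nat.find hex with hk0def
  have hK0 : (0 : ℝ) < k0 := by exact_mod_cast hk0
  have key : ∀ a ∈ Fx H, a ≠ 0 → ∃ d : ℤ, (n : ℝ) * (wq p).w a = d * k0 := by
    intro a ha ha0
    obtain ⟨k, hk⟩ := S33.w_of_relIndex p hH hfin ha ha0
    have hk0' : (0 : ℤ) < (k0 : ℤ) := by exact_mod_cast hk0
    have hr0 := Int.emod_nonneg k hk0'.ne'
    have hr1 := Int.emod_lt_of_pos k hk0'
    have hdiv := Int.emod_add_mul_ediv k k0
    refine ⟨k / k0, ?_⟩
    have hb : (n : ℝ) * (wq p).w (a / ϖ ^ (k / (k0 : ℤ))) = ((k % (k0 : ℤ) : ℤ) : ℝ) := by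
      rw [RVal.w_div ha0 (zpow_ne_zero _ hϖ0), RVal.w_zpow hϖ0, mul_sub, hk, mul_left_comm, hϖw]
      have : (k : ℝ) = ((k % (k0 : ℤ) + (k0 : ℤ) * (k / (k0 : ℤ)) : ℤ) : ℝ) := by rw [hdiv]
      rw [this]
      push_cast
      ring
    have hr : k % (k0 : ℤ) = 0 := by
      by_contra hne
      have hpos : 0 < k % (k0 : ℤ) := lt_of_le_of_ne hr0 (Ne.symm hne)
      have hmin := Nat.find_min' hex (m := (k % (k0 : ℤ)).toNat)
        ⟨by omega, a / ϖ ^ (k / (k0 : ℤ)), div_mem ha (zpow_mem hϖ _),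
          div_ne_zero ha0 (zpow_ne_zero _ hϖ0), by
            rw [hb]
            have : (((k % (k0 : ℤ)).toNat : ℤ) : ℝ) = ((k % (k0 : ℤ) : ℤ) : ℝ) := by
              rw [Int.toNat_of_nonneg hr0]
            exact_mod_cast this.symm⟩
      omega
    rw [hk]
    have : (k : ℝ) = ((k % (k0 : ℤ) + (k0 : ℤ) * (k / (k0 : ℤ)) : ℤ) : ℝ) := by rw [hdiv]
    rw [this, hr]
    push_cast
    ring
  obtain ⟨E', hE'⟩ := key ((p : ℕ) : Qb) (natCast_mem _ _) (q_ne_zero p)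
  rw [wq_q, mul_one] at hE'
  have hE'pos : (0 : ℤ) < E' := by
    have : (0 : ℝ) < (E' : ℝ) * k0 := hE' ▸ hn0
    have h2 : (0 : ℝ) < E' := (mul_pos_iff_of_pos_right hK0).1 this
    exact_mod_cast h2
  have hEc : ((E'.toNat : ℕ) : ℝ) = (E' : ℝ) := by
    have : ((E'.toNat : ℤ) : ℝ) = (E' : ℝ) := by rw [Int.toNat_of_nonneg hE'pos.le]
    exact_mod_cast this
  have hE0 : (0 : ℝ) < (E' : ℝ) := by exact_mod_cast hE'pos
  refine ⟨ϖ, E'.toNat, hH, hϖ, by omega, ⟨hϖ0, ?_⟩, fun a ha ha0 => ?_⟩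
  · rw [hEc]
    rw [hE'] at hϖw
    field_simp
    nlinarith [hϖw]
  · obtain ⟨d, hd⟩ := key a ha ha0
    refine ⟨d, ?_⟩
    rw [hEc]
    rw [hE'] at hd
    field_simp
    have h3 : ((wq p).w a * E' - d) * k0 = 0 := by linarith
    have := (mul_eq_zero.1 h3).resolve_right hK0.ne'
    linarith

theorem Unif.apx (h : Unif p H ϖ E) {y : Qb} (hy : y ∈ Fx H) (hy0 : (wq p).GE y 0) (M : ℕ) :
    ∃ f : (O0 p)[X], f.natDegree < E ∧ (wq p).GE (y - ev f ϖ) M := by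
  have hE' : (0 : ℝ) < E := by exact_mod_cast h.pos
  have hP : (wq p).EQ (((p : ℕ) : Qb)) 1 := ⟨q_ne_zero p, wq_q p⟩
  have claim : ∀ j : ℕ, ∃ f : (O0 p)[X], f.natDegree < E ∧ (wq p).GE (y - ev f ϖ) ((j : ℝ) / E) := by
    intro j
    induction j with
    | zero =>
      refine ⟨0, by simpa using h.pos, ?_⟩
      have : ev (0 : (O0 p)[X]) ϖ = 0 := eval₂_zero _ _
      rw [this, sub_zero]
      simpa using hy0
    | succ j ih =>
      obtain ⟨f, hf, hfy⟩ := ih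
      set r := y - ev f ϖ with hr
      have hrK : r ∈ Fx H := sub_mem hy (ev_mem_Fx h.le f h.mem)
      set m : Qb := ((p : ℕ) : Qb) ^ (j / E) * ϖ ^ (j % E) with hm
      have hmE : (wq p).EQ m ((j : ℝ) / E) := by
        have h1 := (hP.pow (j / E)).mul (h.w.pow (j % E))
        refine h1.of_eq ?_
        have h2 : (j : ℝ) = ((E * (j / E) + j % E : ℕ) : ℝ) := by rw [Nat.div_add_mod]
        rw [h2]
        push_cast
        field_simp
      have hmK : m ∈ Fx H := mul_mem (pow_mem (natCast_mem _ _) _) (pow_mem h.mem _)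
      have hq : (wq p).GE (r / m) 0 :=
        (RVal.GE.of_mul_eq_left (div_mul_cancel₀ _ hmE.1) hmE hfy).mono (by simp)
      obtain ⟨c', hc'fix, hc'0, hc'⟩ := S33.exists_fixed_congr p hq
      let c : O0 p := ⟨c', hc'0, hc'fix⟩
      have hzK : r / m - c' ∈ Fx H := sub_mem (div_mem hrK hmK) (O0_mem_Fx h.le c)
      have hz : (wq p).GE (r / m - c') (1 / (E : ℝ)) := by
        by_cases hz0 : r / m - c' = 0
        · exact Or.inl hz0
        obtain ⟨k, hk⟩ := h.val _ hzK hz0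
        have h1 := hc'.lt_w hz0
        rw [hk] at h1
        have h2 : (0 : ℝ) < k := by
          by_contra hcon
          have := div_nonpos_of_nonpos_of_nonneg (not_lt.1 hcon) hE'.le
          linarith
        have h3 : (1 : ℤ) ≤ k := by
          have : (0 : ℤ) < k := by exact_mod_cast h2
          omega
        refine Or.inr ?_
        rw [hk]
        have h4 : (1 : ℝ) ≤ k := by exact_mod_cast h3
        exact div_le_div_of_nonneg_right h4 hE'.le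
      refine ⟨f + C (c * ((p : ℕ) : O0 p) ^ (j / E)) * X ^ (j % E), ?_, ?_⟩
      · refine lt_of_le_of_lt (natDegree_add_le _ _) (max_lt hf ?_)
        exact lt_of_le_of_lt (natDegree_C_mul_X_pow_le _ _) (Nat.mod_lt _ h.pos)
      · have e : y - ev (f + C (c * ((p : ℕ) : O0 p) ^ (j / E)) * X ^ (j % E)) ϖ =
            m * (r / m - c') := by
          rw [ev_add, ev_mul, ev_C, ev_pow, ev_X, mul_sub, mul_div_cancel₀ _ hmE.1, hr, hm]
          push_cast
          ring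
        rw [e]
        refine ((hmE.GE le_rfl).mul hz).mono ?_
        push_cast
        rw [add_div]
  obtain ⟨f, hf, hfy⟩ := claim (M * E)
  refine ⟨f, hf, hfy.mono ?_⟩
  push_cast
  rw [mul_div_assoc, div_self hE'.ne', mul_one]

end Fermat.Agent.S56.FD
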