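import Fermat.Agent.S56.FK.Tame
import Fermat.Agent.S56.Flat.Defs

/-!
# S56 / FLAT / FD : the derivation argument (KEY)      (owner helper17)

GOAL (`FD/Key.lean`): `w = ∑ j, x j g * a j` (`x` = coordinates of a finite flat group scheme killed by `p`, `a j ∈ O_F`, `F = K0(π)`, `π^e = -p`), `w` a unit,
`σ w = ζ^(κ σ) w` on `J = I_F`   ⟹   `IsK p π ζ κ`, i.e. `w` can be divided by a unit `a ∈ O_F` so that `v((w/a)^p - 1) ≥ 1`.

NO power basis of `O_L`, NO "no defect", NO different, NO completion:  everything is done MODULO `p^M`.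
* `O0 = O_{K0}`, `K0 = Fx (Iq p)`;   `ev f z` = value at `z` of `f ∈ O0[X]`.
* `Unif p H Π E` : `Π ∈ Fx H` has valuation `1/E` and the value group of `Fx H` is `(1/E) ℤ`.
* (APX) every integral `y ∈ Fx H` is `≡ f(Π)` mod `p^M`, `f ∈ O0[X]`, `deg f < E`.
* (G) `G = X^E - p (..)` monic, `v(G(Π)) ≥ M`.  `s := v(G'(Π)) ≤ v(E) + (E-1)/E < M`.
* (WD) `f ∈ O0[X]`, `v(f(Π)) ≥ M` ⟹ `v(f'(Π)) ≥ s`.     So `D (f(Π) + p^M O) := f'(Π)` mod `{v ≥ s}` is a derivation of the ring `R = O0[Π] + p^M O`   (`FD/Der.lean`, abstract).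
* (HOPF) `p • D (x j t) = 0`  (abstract, `FD/Hopf.lean`).
* (T) `π ≡ T(Π)` mod `p^M` ⟹ `v(T'(Π)) = s - (e-1)/e`.    So `p • D π = 0`, `p • D (O_F) = 0`, `p • D w = 0`, `D (w^p) = 0`;  `u = w^p ≡ U(π)`, `D u = U'(π) T'(Π)` ⟹ `v(U'(π)) ≥ (e-1)/e`.
* (FIN) `v(U'(π)) ≥ (e-1)/e` ⟹ `U(π) ≡ a^p` mod `p`.
-/

set_option autoImplicit false

noncomputable section

namespace Fermat.Agent.S56.FD

open Fermat.Agent.S05 Fermat.Agent.S55 Fermat.Agent.S55.B ExtCitation Polynomial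

variable (p : Nat.Primes)

/-- the ring of integers of `K0 = Fx (Iq p)` -/
def O0 : Subring Qb where
  carrier := {x | (wq p).GE x 0 ∧ ∀ σ ∈ Iq p, σ x = x}
  mul_mem' := by
    rintro a b ⟨ha, ha'⟩ ⟨hb, hb'⟩
    refine ⟨by simpa using ha.mul hb, fun σ hσ => ?_⟩
    rw [map_mul, ha' σ hσ, hb' σ hσ]
  one_mem' := ⟨RVal.EQ_one.GE le_rfl, fun σ _ => map_one σ⟩
  add_mem' := by
    rintro a b ⟨ha, ha'⟩ ⟨hb, hb'⟩
    refine ⟨ha.add hb, fun σ hσ => ?_⟩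
    rw [map_add, ha' σ hσ, hb' σ hσ]
  zero_mem' := ⟨RVal.GE_zero 0, fun σ _ => map_zero σ⟩
  neg_mem' := by
    rintro a ⟨ha, ha'⟩
    refine ⟨ha.neg, fun σ hσ => ?_⟩
    rw [map_neg, ha' σ hσ]

variable {p}

theorem mem_O0 {x : Qb} : x ∈ O0 p ↔ (wq p).GE x 0 ∧ ∀ σ ∈ Iq p, σ x = x := Iff.rfl

/-- evaluation of a polynomial with coefficients in `O0` -/
def ev (f : (O0 p)[X]) (z : Qb) : Qb := f.eval₂ (O0 p).subtype z

variable (p)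

/-- `ϖ` is a uniformiser of `Fx H`, of valuation `1/E` -/
structure Unif (H : Subgroup GQ) (ϖ : Qb) (E : ℕ) : Prop where
  le : H ≤ Iq p
  mem : ϖ ∈ Fx H
  pos : 0 < E
  w : (wq p).EQ ϖ (1 / (E : ℝ))
  val : ∀ a ∈ Fx H, a ≠ 0 → ∃ k : ℤ, (wq p).w a = (k : ℝ) / (E : ℝ)

end Fermat.Agent.S56.FD
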