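import Mathlib

/-!
# S56 / FD / Der  (Mathlib only) : the "approximate" derivation

`φ : A →+* B`, `ϖ : B`, ideals `𝔟 ≤ 𝔞` of `B` with   (WD)  `f(ϖ) ∈ 𝔟 → f'(ϖ) ∈ 𝔞`   for `f ∈ A[X]`.
`apxRing = A[ϖ] + 𝔟`,   `apxDer (f(ϖ) + b) = f'(ϖ)` mod `𝔞`.
-/

set_option autoImplicit false

noncomputable section

namespace Fermat.Agent.S56.FD

open Polynomial

variable {A B : Type*} [CommRing A] [CommRing B] (φ : A →+* B) (ϖ : B) (𝔟 𝔞 : Ideal B)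

/-- `R = A[ϖ] + 𝔟` -/
def apxRing : Subring B where
  carrier := {y | ∃ f : A[X], y - f.eval₂ φ ϖ ∈ 𝔟}
  mul_mem' := by
    rintro y y' ⟨f, hf⟩ ⟨f', hf'⟩
    refine ⟨f * f', ?_⟩
    rw [eval₂_mul]
    have : y * y' - f.eval₂ φ ϖ * f'.eval₂ φ ϖ
        = (y - f.eval₂ φ ϖ) * y' + f.eval₂ φ ϖ * (y' - f'.eval₂ φ ϖ) := by ring
    rw [this]
    exact 𝔟.add_mem (𝔟.mul_mem_right _ hf) (𝔟.mul_mem_left _ hf')
  one_mem' := ⟨1, by simp⟩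
  add_mem' := by
    rintro y y' ⟨f, hf⟩ ⟨f', hf'⟩
    refine ⟨f + f', ?_⟩
    rw [eval₂_add]
    have : y + y' - (f.eval₂ φ ϖ + f'.eval₂ φ ϖ) = (y - f.eval₂ φ ϖ) + (y' - f'.eval₂ φ ϖ) := by ring
    rw [this]
    exact 𝔟.add_mem hf hf'
  zero_mem' := ⟨0, by simp⟩
  neg_mem' := by
    rintro y ⟨f, hf⟩
    refine ⟨-f, ?_⟩
    rw [eval₂_neg]
    have : -y - -(f.eval₂ φ ϖ) = -(y - f.eval₂ φ ϖ) := by ring
    rw [this]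
    exact 𝔟.neg_mem hf

theorem mem_apxRing {y : B} : y ∈ apxRing φ ϖ 𝔟 ↔ ∃ f : A[X], y - f.eval₂ φ ϖ ∈ 𝔟 := Iff.rfl

/-- the target of the derivation -/
abbrev apxMod : Type _ := (apxRing φ ϖ 𝔟) ⧸ (𝔞.comap (apxRing φ ϖ 𝔟).subtype)

/-- the class of an element of `R` -/
abbrev apxMk : apxRing φ ϖ 𝔟 →+* apxMod φ ϖ 𝔟 𝔞 := Ideal.Quotient.mk _

theorem apxMk_eq_zero_iff (z : apxRing φ ϖ 𝔟) : apxMk φ ϖ 𝔟 𝔞 z = 0 ↔ (z : B) ∈ 𝔞 := by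
  rw [Ideal.Quotient.eq_zero_iff_mem, Ideal.mem_comap]; rfl

theorem apxMk_eq_iff (z z' : apxRing φ ϖ 𝔟) :
    apxMk φ ϖ 𝔟 𝔞 z = apxMk φ ϖ 𝔟 𝔞 z' ↔ (z : B) - z' ∈ 𝔞 := by
  rw [Ideal.Quotient.eq, Ideal.mem_comap]; rfl

/-- `f(ϖ)` as an element of `R` -/
def polyMem (f : A[X]) : apxRing φ ϖ 𝔟 := ⟨f.eval₂ φ ϖ, f, by simp⟩

@[simp] theorem coe_polyMem (f : A[X]) : (polyMem φ ϖ 𝔟 f : B) = f.eval₂ φ ϖ := rfl

/-- the constants -/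
def apxC : A →+* apxRing φ ϖ 𝔟 :=
  φ.codRestrict (apxRing φ ϖ 𝔟) (fun c => ⟨C c, by simp⟩)

@[simp] theorem coe_apxC (c : A) : (apxC φ ϖ 𝔟 c : B) = φ c := rfl

def apxDerFun (y : apxRing φ ϖ 𝔟) : apxMod φ ϖ 𝔟 𝔞 :=
  apxMk φ ϖ 𝔟 𝔞 (polyMem φ ϖ 𝔟 (derivative y.2.choose))

variable {φ ϖ 𝔟 𝔞}

theorem apxDerFun_eq (wd : ∀ f : A[X], f.eval₂ φ ϖ ∈ 𝔟 → (derivative f).eval₂ φ ϖ ∈ 𝔞)
    (y : apxRing φ ϖ 𝔟) (f : A[X]) (hf : (y : B) - f.eval₂ φ ϖ ∈ 𝔟) :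
    apxDerFun φ ϖ 𝔟 𝔞 y = apxMk φ ϖ 𝔟 𝔞 (polyMem φ ϖ 𝔟 (derivative f)) := by
  unfold apxDerFun
  rw [apxMk_eq_iff, coe_polyMem, coe_polyMem, ← eval₂_sub, ← derivative_sub]
  apply wd
  rw [eval₂_sub]
  have h1 := y.2.choose_spec
  have : y.2.choose.eval₂ φ ϖ - f.eval₂ φ ϖ
      = ((y : B) - f.eval₂ φ ϖ) - ((y : B) - y.2.choose.eval₂ φ ϖ) := by ring
  rw [this]
  exact 𝔟.sub_mem hf h1

/-- the derivation -/
def apxDer (hle : 𝔟 ≤ 𝔞)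
    (wd : ∀ f : A[X], f.eval₂ φ ϖ ∈ 𝔟 → (derivative f).eval₂ φ ϖ ∈ 𝔞) :
    Derivation ℤ (apxRing φ ϖ 𝔟) (apxMod φ ϖ 𝔟 𝔞) :=
  Derivation.mk' (AddMonoidHom.toIntLinearMap (AddMonoidHom.mk' (apxDerFun φ ϖ 𝔟 𝔞) (by
    intro y y'
    have h := y.2.choose_spec
    have h' := y'.2.choose_spec
    rw [apxDerFun_eq wd (y + y') (y.2.choose + y'.2.choose) (by
      rw [eval₂_add]
      have : ((y + y' : apxRing φ ϖ 𝔟) : B) - (y.2.choose.eval₂ φ ϖ + y'.2.choose.eval₂ φ ϖ)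
          = ((y : B) - y.2.choose.eval₂ φ ϖ) + ((y' : B) - y'.2.choose.eval₂ φ ϖ) := by
        push_cast; ring
      rw [this]
      exact 𝔟.add_mem h h')]
    unfold apxDerFun
    rw [← map_add, apxMk_eq_iff]
    simp [derivative_add, eval₂_add]))) (by
    intro y y'
    have h := y.2.choose_spec
    have h' := y'.2.choose_spec
    show apxDerFun φ ϖ 𝔟 𝔞 (y * y') = y • apxDerFun φ ϖ 𝔟 𝔞 y' + y' • apxDerFun φ ϖ 𝔟 𝔞 y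
    rw [apxDerFun_eq wd (y * y') (y.2.choose * y'.2.choose) (by
      rw [eval₂_mul]
      have : ((y * y' : apxRing φ ϖ 𝔟) : B) - y.2.choose.eval₂ φ ϖ * y'.2.choose.eval₂ φ ϖ
          = ((y : B) - y.2.choose.eval₂ φ ϖ) * y' + y.2.choose.eval₂ φ ϖ
            * ((y' : B) - y'.2.choose.eval₂ φ ϖ) := by
        push_cast; ring
      rw [this]
      exact 𝔟.add_mem (𝔟.mul_mem_right _ h) (𝔟.mul_mem_left _ h'))]
    unfold apxDerFun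
    rw [Algebra.smul_def, Algebra.smul_def]
    show apxMk φ ϖ 𝔟 𝔞 _ = apxMk φ ϖ 𝔟 𝔞 y * apxMk φ ϖ 𝔟 𝔞 _ + apxMk φ ϖ 𝔟 𝔞 y' * apxMk φ ϖ 𝔟 𝔞 _
    rw [← map_mul, ← map_mul, ← map_add, apxMk_eq_iff]
    apply hle
    simp only [coe_polyMem, derivative_mul, eval₂_add, eval₂_mul, Subring.coe_add, Subring.coe_mul]
    have : eval₂ φ ϖ (derivative y.2.choose) * eval₂ φ ϖ y'.2.choose
        + eval₂ φ ϖ y.2.choose * eval₂ φ ϖ (derivative y'.2.choose)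
        - ((y : B) * eval₂ φ ϖ (derivative y'.2.choose) + (y' : B) * eval₂ φ ϖ (derivative y.2.choose))
        = - (((y : B) - y.2.choose.eval₂ φ ϖ) * eval₂ φ ϖ (derivative y'.2.choose))
          - ((y' : B) - y'.2.choose.eval₂ φ ϖ) * eval₂ φ ϖ (derivative y.2.choose) := by ring
    rw [this]
    exact 𝔟.sub_mem (𝔟.neg_mem (𝔟.mul_mem_right _ h)) (𝔟.mul_mem_right _ h'))

variable (hle : 𝔟 ≤ 𝔞) (wd : ∀ f : A[X], f.eval₂ φ ϖ ∈ 𝔟 → (derivative f).eval₂ φ ϖ ∈ 𝔞)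

theorem apxDer_apply (y : apxRing φ ϖ 𝔟) (f : A[X]) (hf : (y : B) - f.eval₂ φ ϖ ∈ 𝔟) :
    apxDer hle wd y = apxMk φ ϖ 𝔟 𝔞 (polyMem φ ϖ 𝔟 (derivative f)) :=
  apxDerFun_eq wd y f hf

theorem apxDer_C (c : A) : apxDer hle wd (apxC φ ϖ 𝔟 c) = 0 := by
  rw [apxDer_apply hle wd _ (C c) (by simp), apxMk_eq_zero_iff]
  simp

theorem apxDer_of_mem (y : apxRing φ ϖ 𝔟) (hy : (y : B) ∈ 𝔟) : apxDer hle wd y = 0 := by
  rw [apxDer_apply hle wd _ 0 (by simpa using hy), apxMk_eq_zero_iff]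
  simp

theorem apxDer_congr (y y' : apxRing φ ϖ 𝔟) (h : (y : B) - y' ∈ 𝔟) : apxDer hle wd y = apxDer hle wd y' := by
  rw [← sub_eq_zero, ← map_sub]
  exact apxDer_of_mem hle wd _ h

/-- the chain rule for polynomials with constant coefficients -/
theorem apxDer_eval₂ (U : A[X]) (z : apxRing φ ϖ 𝔟) :
    apxDer hle wd (U.eval₂ (apxC φ ϖ 𝔟) z) = (derivative U).eval₂ (apxC φ ϖ 𝔟) z • apxDer hle wd z := by
  induction U using Polynomial.induction_on' with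
  | add f g hf hg => rw [eval₂_add, map_add, hf, hg, derivative_add, eval₂_add, add_smul]
  | monomial n c =>
    rw [eval₂_monomial, Derivation.leibniz, apxDer_C, smul_zero, add_zero, Derivation.leibniz_pow,
      derivative_monomial, eval₂_monomial, map_mul, map_natCast]
    rw [← Nat.cast_smul_eq_nsmul (apxRing φ ϖ 𝔟), smul_smul, smul_smul, mul_assoc]

end Fermat.Agent.S56.FD
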