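import Fermat.Agent.S56.FD.Apx

/-!
# S56 / FD / Fin      key [S56/FD-FIN]      (~250 lines; uses only the STATEMENTS of FD/Apx.lean + FK/Tame.lean)

`e = ee p = p² - 1`, `π^e = -p`.   `U ∈ O0[X]`, `deg U < e`, `v(U'(π)) ≥ (e-1)/e`    ⟹    `U(π) ≡ a^p` mod `p` with `a ∈ O0[π]`.
PROOF.  `U' = ∑ (k+1) c_(k+1) X^k` has `natDegree < e`; `term_GE` (`ϖ := π`, `E := e`, `FK.w_pi'`): `w ((k+1) c_(k+1)) + k/e ≥ (e-1)/e` for all `k`; for `k + 1 < e`: `w ((k+1) c_(k+1)) > 0`.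
 If `p ∤ k+1`: `EQ (k+1 : Qb) 0` (`FK.natCast_EQ`), so `GT (c_(k+1)) 0`, so `GE (c_(k+1)) 1` (`w_O0`).       So: (*) `∀ k < e, ¬ p ∣ k → GE (c_k) 1`.
 `unif_root`: for `c ∈ O0` there is `b ∈ O0` with `GE (b^p - c) 1`:   `b'` with `b'^p = c` (`IsAlgClosed.exists_pow_nat_eq`), `GE b' 0` (else `w c < 0`); `exists_fixed_congr`: `b ∈ O0`, `GT (b' - b) 0`;
   `GT (b'^p - b^p) 0` (`GT_pow_sub_pow`), `b^p - c ∈ O0`, so `GE 1` (`w_O0`).
 `a := ∑ j ∈ range e, b_j π^j` where `b_j` is a root of `c_(p j)` (`c_i = 0` for `i ≥ e`).    `a` is fixed by `J` (`mem_stab`, `b_j` fixed by `I ⊇ J`), integral.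
 FRESHMAN: `GE ((∑ j ∈ s, z_j)^p - ∑ j ∈ s, z_j^p) 1` for integral `z_j`.   [induction on `s`; `(x + y)^p - x^p - y^p = p * (integral)`: `add_pow` + `Nat.Prime.dvd_choose_self`, or in the ring `OO ⧸ (p)` of characteristic `p`: `add_pow_char`, `sum_pow_char`.]
 `a^p ≡ ∑_j b_j^p π^(p j) ≡ ∑_j c_(p j) π^(p j)` mod `p`;  terms with `p j ≥ e` vanish (`c = 0`); `U(π) = ∑_(k<e) c_k π^k ≡ ∑_(k < e, p ∣ k) c_k π^k` by (*);  reindex `k = p j`  (`Finset.sum_filter`/`sum_bij`, or: prove `GE (c_k π^k - [p ∣ k] ...)`; simplest: write both sums over `k ∈ range (p * e)`).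
-/

set_option autoImplicit false

noncomputable section

namespace Fermat.Agent.S56.FD

open Fermat.Agent.S05 Fermat.Agent.S55 Fermat.Agent.S55.B ExtCitation Polynomial
open Fermat.Agent.S56.FK

variable {p : Nat.Primes} {π ζ : Qb}

/-- elements of `O0` of positive valuation have valuation `≥ 1` -/
theorem finAux_GE_one (c : O0 p) (h : (wq p).GT (c : Qb) 0) : (wq p).GE (c : Qb) 1 := by
  by_cases hc : (c : Qb) = 0
  · exact Or.inl hc
  · obtain ⟨k, hk⟩ := w_O0 c hc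
    have h1 := h.lt_w hc
    rw [hk] at h1
    have h2 : 0 < k := by exact_mod_cast h1
    refine Or.inr ?_
    rw [hk]
    exact_mod_cast h2

/-- `p`-th roots modulo `p` in `O0` -/
theorem unif_root (c : O0 p) : ∃ b : O0 p, (wq p).GE ((b : Qb) ^ (p : ℕ) - c) 1 := by
  obtain ⟨b', hb'⟩ := IsAlgClosed.exists_pow_nat_eq (c : Qb) p.2.pos
  have hb0 : (wq p).GE b' 0 := by
    by_cases h0 : b' = 0
    · exact Or.inl h0
    · refine Or.inr ?_
      have h1 := RVal.w_pow (v := wq p) h0 (p : ℕ)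
      rw [hb'] at h1
      have h2 := c.2.1.le_w (by rw [← hb']; exact pow_ne_zero _ h0)
      rw [h1] at h2
      have hp : (0 : ℝ) < ((p : ℕ) : ℝ) := by exact_mod_cast p.2.pos
      exact nonneg_of_mul_nonneg_right h2 hp
  obtain ⟨b, hbfix, hbint, hbc⟩ := S33.exists_fixed_congr p hb0
  have h1 := GT_pow_sub_pow (wq p) hb0 hbint hbc (p : ℕ)
  rw [hb'] at h1
  let B : O0 p := ⟨b, hbint, hbfix⟩
  refine ⟨B, ?_⟩
  have h2 : (wq p).GT (((B ^ (p : ℕ) - c : O0 p)) : Qb) 0 := by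
    have := h1.neg
    rw [neg_sub] at this
    exact this
  exact finAux_GE_one _ h2

theorem finAux_two {x y : Qb} (hx : (wq p).GE x 0) (hy : (wq p).GE y 0) :
    (wq p).GE ((x + y) ^ (p : ℕ) - (x ^ (p : ℕ) + y ^ (p : ℕ))) 1 := by
  rw [add_pow_prime_eq p.2, add_sub_cancel_left]
  have hP : (wq p).GE (((p : ℕ) : Qb)) 1 := Or.inr (by rw [wq_q])
  have h1 : (wq p).GE (∑ k ∈ Finset.Ioo 0 (p : ℕ), x ^ (k - 1) * y ^ ((p : ℕ) - k - 1) *
      (((p : ℕ).choose k / (p : ℕ) : ℕ) : Qb)) 0 := by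
    refine GE_sum _ _ _ _ fun k _ => ?_
    simpa using ((hx.pow (k - 1)).mul (hy.pow ((p : ℕ) - k - 1))).mul
      (RVal.GE_natCast (v := wq p) ((p : ℕ).choose k / (p : ℕ)))
  simpa using ((hP.mul hx).mul hy).mul h1

/-- freshman's dream modulo `p` -/
theorem freshman {ι : Type*} (s : Finset ι) (z : ι → Qb) (hz : ∀ i ∈ s, (wq p).GE (z i) 0) :
    (wq p).GE ((∑ i ∈ s, z i) ^ (p : ℕ) - ∑ i ∈ s, z i ^ (p : ℕ)) 1 := by
  classical
  induction s using Finset.induction_on with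
  | empty => simpa [zero_pow p.2.ne_zero] using RVal.GE_zero (v := wq p) 1
  | insert i s hi ih =>
    rw [Finset.sum_insert hi, Finset.sum_insert hi]
    have h1 := ih fun j hj => hz j (Finset.mem_insert_of_mem hj)
    have h2 : (wq p).GE (∑ j ∈ s, z j) 0 :=
      GE_sum _ _ _ _ fun j hj => hz j (Finset.mem_insert_of_mem hj)
    have h3 := finAux_two (hz i (Finset.mem_insert_self i s)) h2
    have h4 := h3.add h1
    have e : (z i + ∑ j ∈ s, z j) ^ (p : ℕ) - (z i ^ (p : ℕ) + (∑ j ∈ s, z j) ^ (p : ℕ)) +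
        ((∑ j ∈ s, z j) ^ (p : ℕ) - ∑ j ∈ s, z j ^ (p : ℕ)) =
        (z i + ∑ j ∈ s, z j) ^ (p : ℕ) - (z i ^ (p : ℕ) + ∑ j ∈ s, z j ^ (p : ℕ)) := by ring
    rwa [e] at h4

/-- (*) the coefficients of index prime to `p` are divisible by `p` -/
theorem finAux_coeff (hT : TD p π ζ) (U : (O0 p)[X]) (hUd : U.natDegree < ee p)
    (hU' : (wq p).GE (ev (derivative U) π) (((ee p : ℝ) - 1) / ee p)) {k : ℕ}
    (hk : ¬ (p : ℕ) ∣ k) : (wq p).GE ((U.coeff k : O0 p) : Qb) 1 := by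
  obtain ⟨j, rfl⟩ : ∃ j, k = j + 1 := by
    rcases k with _ | j
    · exact absurd (dvd_zero _) hk
    · exact ⟨j, rfl⟩
  by_cases hje : ee p ≤ j + 1
  · rw [coeff_eq_zero_of_natDegree_lt (lt_of_lt_of_le hUd hje)]
    exact Or.inl rfl
  push Not at hje
  apply finAux_GE_one
  by_cases hc : ((U.coeff (j + 1) : O0 p) : Qb) = 0
  · exact Or.inl hc
  have hd : (derivative U).natDegree < ee p :=
    lt_of_le_of_lt (natDegree_derivative_le U) (lt_of_le_of_lt (Nat.sub_le _ _) hUd)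
  have h1 := term_GE ee_pos (w_pi' hT) (derivative U) hd hU' j
  rw [coeff_derivative] at h1
  have e : (((U.coeff (j + 1) * ((j : O0 p) + 1) : O0 p)) : Qb) =
      ((U.coeff (j + 1) : O0 p) : Qb) * (((j + 1 : ℕ)) : Qb) := by
    push_cast
    rfl
  rw [e] at h1
  have hj1 := natCast_EQ (p := p) hk
  have hπj := w_pi_pow hT j
  have h2 := h1.le_w (mul_ne_zero (mul_ne_zero hc hj1.1) hπj.1)
  rw [(wq p).map_mul _ _ (mul_ne_zero hc hj1.1) hπj.1, (wq p).map_mul _ _ hc hj1.1, hj1.2, hπj.2,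
    add_zero] at h2
  refine Or.inr ?_
  have he : (0 : ℝ) < ee p := by exact_mod_cast ee_pos
  have hje' : (j : ℝ) + 1 < ee p := by exact_mod_cast hje
  have h3 : ((ee p : ℝ) - 1) / ee p - (j : ℝ) / ee p > 0 := by
    rw [← sub_div]
    apply div_pos _ he
    linarith
  linarith

theorem pth_power (hT : TD p π ζ) (U : (O0 p)[X]) (hUd : U.natDegree < ee p)
    (hU' : (wq p).GE (ev (derivative U) π) (((ee p : ℝ) - 1) / ee p)) :
    ∃ a : Qb, (∀ σ ∈ JJ p π, σ a = a) ∧ (wq p).GE a 0 ∧ (wq p).GE (ev U π - a ^ (p : ℕ)) 1 := by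
  classical
  have hπ0 : (wq p).GE π 0 := (w_pi' hT).GE (by positivity)
  choose b hb using fun j : ℕ => unif_root (U.coeff ((p : ℕ) * j))
  refine ⟨∑ j ∈ Finset.range (ee p), (b j : Qb) * π ^ j, fun σ hσ => ?_, ?_, ?_⟩
  · rw [map_sum]
    refine Finset.sum_congr rfl fun j _ => ?_
    rw [map_mul, map_pow, hσ.2, (b j).2.2 σ hσ.1]
  · exact GE_sum _ _ _ _ fun j _ => by simpa using (b j).2.1.mul (hπ0.pow j)
  · have h1 := freshman (p := p) (Finset.range (ee p)) (fun j => (b j : Qb) * π ^ j)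
      (fun j _ => by simpa using (b j).2.1.mul (hπ0.pow j))
    have h2 : (wq p).GE (∑ j ∈ Finset.range (ee p), ((b j : Qb) * π ^ j) ^ (p : ℕ) -
        ∑ j ∈ Finset.range (ee p), ((U.coeff ((p : ℕ) * j) : O0 p) : Qb) * π ^ ((p : ℕ) * j)) 1 := by
      rw [← Finset.sum_sub_distrib]
      refine GE_sum _ _ _ _ fun j _ => ?_
      have e : ((b j : Qb) * π ^ j) ^ (p : ℕ) -
          ((U.coeff ((p : ℕ) * j) : O0 p) : Qb) * π ^ ((p : ℕ) * j) =
          ((b j : Qb) ^ (p : ℕ) - ((U.coeff ((p : ℕ) * j) : O0 p) : Qb)) * π ^ ((p : ℕ) * j) := by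
        rw [mul_pow, ← pow_mul, mul_comm j (p : ℕ)]
        ring
      rw [e]
      simpa using (hb j).mul (hπ0.pow ((p : ℕ) * j))
    have hlt : U.natDegree < (p : ℕ) * ee p :=
      lt_of_lt_of_le hUd (Nat.le_mul_of_pos_left _ p.2.pos)
    have h3 : ev U π = ∑ k ∈ Finset.range ((p : ℕ) * ee p), ((U.coeff k : O0 p) : Qb) * π ^ k :=
      eval₂_eq_sum_range' _ hlt _
    have himg : (Finset.range ((p : ℕ) * ee p)).filter (fun k => (p : ℕ) ∣ k) =
        (Finset.range (ee p)).image (fun j => (p : ℕ) * j) := by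
      ext k
      simp only [Finset.mem_filter, Finset.mem_range, Finset.mem_image]
      constructor
      · rintro ⟨hk, j, rfl⟩
        exact ⟨j, lt_of_mul_lt_mul_left hk (Nat.zero_le _), rfl⟩
      · rintro ⟨j, hj, rfl⟩
        exact ⟨Nat.mul_lt_mul_of_pos_left hj p.2.pos, dvd_mul_right _ _⟩
    have h4 : ∑ j ∈ Finset.range (ee p), ((U.coeff ((p : ℕ) * j) : O0 p) : Qb) * π ^ ((p : ℕ) * j) =
        ∑ k ∈ (Finset.range ((p : ℕ) * ee p)).filter (fun k => (p : ℕ) ∣ k),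
          ((U.coeff k : O0 p) : Qb) * π ^ k := by
      rw [himg, Finset.sum_image]
      intro i _ j _ hij
      exact Nat.eq_of_mul_eq_mul_left p.2.pos hij
    have h5 : (wq p).GE (ev U π -
        ∑ j ∈ Finset.range (ee p), ((U.coeff ((p : ℕ) * j) : O0 p) : Qb) * π ^ ((p : ℕ) * j)) 1 := by
      rw [h3, h4, ← Finset.sum_filter_add_sum_filter_not (Finset.range ((p : ℕ) * ee p))
        (fun k => (p : ℕ) ∣ k), add_sub_cancel_left]
      refine GE_sum _ _ _ _ fun k hk => ?_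
      simpa using (finAux_coeff hT U hUd hU' (Finset.mem_filter.1 hk).2).mul (hπ0.pow k)
    have h6 := (h5.sub h2).sub h1
    convert h6 using 1
    ring

end Fermat.Agent.S56.FD
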