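import Fermat.Agent.S56.FD.Apx

/-!
# S56 / FD / G      key [S56/FD-G]      (~250 lines; uses only the STATEMENTS of FD/Apx.lean)

`IsG p ϖ E M G` : `G ∈ O0[X]` monic of degree `E`, lower coefficients divisible by `p`, `v(G(ϖ)) ≥ M`   ("approximate Eisenstein polynomial of `ϖ`").
* `Unif.exists_G`: `y := ϖ^E / p ∈ Fx H`, `w y = 0`;  `h.apx` (level `M`): `f`, `natDegree f < E`, `GE (y - ev f ϖ) M`.   `G := X^E - C p * f`  (`(p : O0 p)` = natCast).
   Monic of degree `E`: `Polynomial.monic_X_pow_sub` (`degree (C p * f) < E`) / `natDegree_X_pow_sub`;  `coeff i = - p * f.coeff i` for `i < E`;   `ev G ϖ = p * (y - ev f ϖ)`.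
* `IsG.der_term`: `derivative G` has `natDegree ≤ E - 1 < E` and `coeff (E-1) = E` (`coeff_derivative`, monic).  If `GE (ev G' ϖ) a` then by `term_GE`: `GE (E * ϖ^(E-1)) a`.
* `IsG.der_ne`: if `ev G' ϖ = 0` then `GE _ a` for all `a`, so `GE (E ϖ^(E-1)) a` for all `a`: impossible (`≠ 0`; take `a = w + 1`).
* `IsG.der_lt`: `der_term` with `a = w (ev G' ϖ)`:  `w (ev G' ϖ) ≤ w E + (E-1)/E < w E + 1`.
* `IsG.wd`: `q := f /ₘ G`, `r := f %ₘ G`, `f = r + G * q` (`modByMonic_add_div`), `natDegree r < E` (`natDegree_modByMonic_lt`, `G ≠ 1` since `E > 0`).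
   `ev r ϖ = ev f ϖ - ev G ϖ * ev q ϖ` is `GE M`;  `coeff_GE`: all coefficients of `r` are `GE M`, hence `GE (ev r' ϖ) M` (`ev_eq_sum`, `coeff_derivative`, `GE_sum`).
   `f' = r' + G' q + G q'`:  `ev f' ϖ = ev r' ϖ + ev G' ϖ * ev q ϖ + ev G ϖ * ev q' ϖ`, each term is `GE s` (`s := w (ev G' ϖ) < M` by `der_lt` + `hM`).
-/

set_option autoImplicit false

noncomputable section

namespace Fermat.Agent.S56.FD

open Fermat.Agent.S05 Fermat.Agent.S55 Fermat.Agent.S55.B ExtCitation Polynomial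

variable (p : Nat.Primes)

/-- approximate Eisenstein polynomial -/
structure IsG (ϖ : Qb) (E M : ℕ) (G : (O0 p)[X]) : Prop where
  monic : G.Monic
  deg : G.natDegree = E
  low : ∀ i < E, (wq p).GE (G.coeff i : Qb) 1
  small : (wq p).GE (ev G ϖ) M

variable {p} {H : Subgroup GQ} {ϖ : Qb} {E M : ℕ} {G : (O0 p)[X]}

theorem O0_GE (c : O0 p) : (wq p).GE (c : Qb) 0 := c.2.1

theorem coe_natCast_O0 (n : ℕ) : (((n : O0 p)) : Qb) = (n : Qb) := by
  exact SubringClass.coe_natCast (O0 p) n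

/-- the derivative of a polynomial with small coefficients is small -/
theorem ev_der_GE (f : (O0 p)[X]) {z : Qb} (hz : (wq p).GE z 0) {a : ℝ}
    (hf : ∀ i, (wq p).GE (f.coeff i : Qb) a) : (wq p).GE (ev (derivative f) z) a := by
  rw [ev_eq_sum]
  refine GE_sum _ _ _ _ fun i _ => ?_
  rw [coeff_derivative]
  have h1 : (((f.coeff (i + 1) * ((i : O0 p) + 1) : O0 p)) : Qb) =
      (f.coeff (i + 1) : Qb) * (((i + 1 : ℕ)) : Qb) := by
    rw [Subring.coe_mul, Subring.coe_add, coe_natCast_O0, Subring.coe_one]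
    push_cast
    rfl
  rw [h1]
  have := ((hf (i + 1)).mul (RVal.GE_natCast (v := wq p) (i + 1))).mul (hz.pow i)
  simpa using this

theorem gAux_EQ_p : (wq p).EQ (((p : ℕ)) : Qb) 1 := ⟨q_ne_zero p, wq_q p⟩

theorem Unif.GE_unif (h : Unif p H ϖ E) : (wq p).GE ϖ 0 := by
  refine h.w.GE ?_
  positivity

theorem Unif.exists_G (h : Unif p H ϖ E) (M : ℕ) : ∃ G, IsG p ϖ E M G := by
  have hE0 : (E : ℝ) ≠ 0 := by exact_mod_cast h.pos.ne'
  have hy : ϖ ^ E / ((p : ℕ) : Qb) ∈ Fx H := div_mem (pow_mem h.mem E) (natCast_mem _ _)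
  have hy0 : (wq p).EQ (ϖ ^ E / ((p : ℕ) : Qb)) 0 := by
    have := (h.w.pow E).div (gAux_EQ_p (p := p))
    refine this.of_eq ?_
    field_simp
    ring
  obtain ⟨f, hf, hfy⟩ := h.apx hy (hy0.GE le_rfl) M
  have hdeg : (C ((p : ℕ) : O0 p) * f).natDegree < E :=
    lt_of_le_of_lt (natDegree_C_mul_le _ _) hf
  have hdeg' : (C ((p : ℕ) : O0 p) * f).degree < (E : ℕ) :=
    lt_of_le_of_lt degree_le_natDegree (by exact_mod_cast hdeg)
  refine ⟨X ^ E - C ((p : ℕ) : O0 p) * f, monic_X_pow_sub hdeg', ?_, ?_, ?_⟩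
  · rw [natDegree_sub_eq_left_of_natDegree_lt (by rwa [natDegree_X_pow]), natDegree_X_pow]
  · intro i hi
    rw [coeff_sub, coeff_X_pow, if_neg hi.ne, zero_sub, coeff_C_mul, Subring.coe_neg,
      Subring.coe_mul, coe_natCast_O0]
    have := ((gAux_EQ_p (p := p)).GE le_rfl).mul (O0_GE (f.coeff i))
    simpa using this.neg
  · have e : ev (X ^ E - C ((p : ℕ) : O0 p) * f) ϖ =
        ((p : ℕ) : Qb) * (ϖ ^ E / ((p : ℕ) : Qb) - ev f ϖ) := by
      rw [ev_sub, ev_pow, ev_X, ev_mul, ev_C, coe_natCast_O0, mul_sub,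
        mul_div_cancel₀ _ (q_ne_zero p)]
    rw [e]
    exact (((gAux_EQ_p (p := p)).GE le_rfl).mul hfy).mono (by linarith)

theorem IsG.der_term (hE : 0 < E) (hw : (wq p).EQ ϖ (1 / (E : ℝ))) (hG : IsG p ϖ E M G) {a : ℝ}
    (h : (wq p).GE (ev (derivative G) ϖ) a) : (wq p).GE ((E : Qb) * ϖ ^ (E - 1)) a := by
  have hlt : (derivative G).natDegree < E := by
    have := natDegree_derivative_lt (p := G) (by rw [hG.deg]; exact hE.ne')
    rwa [hG.deg] at this
  have h1 := term_GE hE hw (derivative G) hlt h (E - 1)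
  rw [coeff_derivative, Nat.sub_add_cancel hE] at h1
  have h2 : G.coeff E = 1 := by
    have := hG.monic.coeff_natDegree
    rwa [hG.deg] at this
  rw [h2, one_mul] at h1
  have h3 : ((((E - 1 : ℕ) : O0 p) + 1 : O0 p) : Qb) = (E : Qb) := by
    rw [Subring.coe_add, coe_natCast_O0, Subring.coe_one]
    have : ((E - 1 : ℕ) : Qb) + 1 = ((E - 1 + 1 : ℕ) : Qb) := by push_cast; rfl
    rw [this, Nat.sub_add_cancel hE]
  rwa [h3] at h1

theorem gAux_ne (hE : 0 < E) (hw : (wq p).EQ ϖ (1 / (E : ℝ))) : (E : Qb) * ϖ ^ (E - 1) ≠ 0 :=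
  mul_ne_zero (by exact_mod_cast hE.ne') (pow_ne_zero _ hw.1)

theorem IsG.der_ne (hE : 0 < E) (hw : (wq p).EQ ϖ (1 / (E : ℝ))) (hG : IsG p ϖ E M G) :
    ev (derivative G) ϖ ≠ 0 := by
  intro h0
  have h1 := hG.der_term hE hw (a := (wq p).w ((E : Qb) * ϖ ^ (E - 1)) + 1) (by rw [h0]; exact RVal.GE_zero _)
  have := h1.le_w (gAux_ne hE hw)
  linarith

theorem IsG.der_lt (hE : 0 < E) (hw : (wq p).EQ ϖ (1 / (E : ℝ))) (hG : IsG p ϖ E M G) :
    (wq p).w (ev (derivative G) ϖ) < (wq p).w (E : Qb) + 1 := by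
  have h1 := hG.der_term hE hw ((RVal.EQ_self (hG.der_ne hE hw)).GE le_rfl)
  have h2 := h1.le_w (gAux_ne hE hw)
  have hE0 : (E : Qb) ≠ 0 := by exact_mod_cast hE.ne'
  have h3 : (wq p).EQ ((E : Qb) * ϖ ^ (E - 1)) ((wq p).w (E : Qb) + ((E - 1 : ℕ) : ℝ) * (1 / (E : ℝ))) :=
    (RVal.EQ_self hE0).mul (hw.pow (E - 1))
  rw [h3.2] at h2
  have hER : (0 : ℝ) < E := by exact_mod_cast hE
  have h4 : ((E - 1 : ℕ) : ℝ) * (1 / (E : ℝ)) < 1 := by
    rw [Nat.cast_sub hE, Nat.cast_one, mul_one_div, div_lt_one hER]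
    linarith
  linarith

/-- (WD) -/
theorem IsG.wd (hE : 0 < E) (hw : (wq p).EQ ϖ (1 / (E : ℝ))) (hG : IsG p ϖ E M G)
    (hM : (wq p).w (E : Qb) + 1 ≤ M) (f : (O0 p)[X]) (hf : (wq p).GE (ev f ϖ) M) :
    (wq p).GE (ev (derivative f) ϖ) ((wq p).w (ev (derivative G) ϖ)) := by
  have hϖ0 : (wq p).GE ϖ 0 := hw.GE (by positivity)
  have hs := hG.der_lt hE hw
  have hG1 : G ≠ 1 := by
    intro h
    have := hG.deg
    rw [h, natDegree_one] at this
    omega
  have hdiv := modByMonic_add_div f G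
  set r := f %ₘ G with hr
  set q := f /ₘ G with hq
  have hrdeg : r.natDegree < E := by
    have := natDegree_modByMonic_lt f hG.monic hG1
    rwa [hG.deg] at this
  have hrev : (wq p).GE (ev r ϖ) M := by
    have e : ev r ϖ = ev f ϖ - ev G ϖ * ev q ϖ := by
      rw [← hdiv, ev_add, ev_mul]; ring
    rw [e]
    refine hf.sub ?_
    simpa using hG.small.mul (ev_GE q hϖ0)
  have hr' : (wq p).GE (ev (derivative r) ϖ) M := ev_der_GE r hϖ0 (coeff_GE hE hw r hrdeg hrev)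
  have e : ev (derivative f) ϖ = ev (derivative r) ϖ + (ev (derivative G) ϖ * ev q ϖ +
      ev G ϖ * ev (derivative q) ϖ) := by
    rw [← hdiv, derivative_add, derivative_mul, ev_add, ev_add, ev_mul, ev_mul]
  rw [e]
  refine (hr'.mono (by linarith)).add (RVal.GE.add ?_ ?_)
  · simpa using ((RVal.EQ_self (hG.der_ne hE hw)).GE le_rfl).mul (ev_GE q hϖ0)
  · have := hG.small.mul (ev_GE (derivative q) hϖ0)
    exact this.mono (by linarith)

end Fermat.Agent.S56.FD
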