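import Mathlib

/-!
# S56 / FD / Hopf      key [S56/FD-HOPF]      (MATHLIB ONLY, ~250 lines)

`V` an abelian group killed by `p`, `x i : V → R` "coordinates" with structure constants `δ` (addition), `μ` (multiplication), `e` (unit), linearly independent over `R`;
`D` a derivation of `R` killing the `μ`.   THEN `p • D (x i t) = 0`.        (a group scheme killed by `p` has differentials killed by `p`)

PROOF.  Work with coordinate vectors `c : Fin n → R`;  `val c s := ∑ i, c i * x i s`.  By `li`, `val c = val c'` (as functions) implies `c = c'`.   Fix `t`.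
 `E c := ∑ i, c i • D (x i t)`  (`R`-linear in `c`; the `c i` are NOT differentiated).
 (1) LEIBNIZ for `E`: if `∀ s, val c'' s = val c s * val c' s` then `E c'' = val c t • E c' + val c' t • E c`.
     [by `li` + `mul`: `c'' i = ∑ j k, μ i j k * (c j * c' k)`;  `∑ i, μ i j k • D (x i t) = D (∑ i, μ i j k * x i t) = D (x j t * x k t) = x j t • D (x k t) + x k t • D (x j t)`  (`hμ`, `Derivation.leibniz`).]
 `tr s c := fun k => ∑ i, ∑ j, c i * δ i j k * x j s`  : `val (tr s c) u = val c (s + u)`  (`add`).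
 `d0 c := E (tr (-t) c)`   (`R`-linear).
 (2) if `∀ s, val c'' s = val c s * val c' s` then `d0 c'' = val c 0 • d0 c' + val c' 0 • d0 c`.      [(1) for `tr (-t) _`;  `val (tr (-t) c) t = val c (-t + t) = val c 0`.]
 (3) `d0 e = 0`   [`val e = 1 = 1 * 1`, so `d0 e = d0 e + d0 e`].
 (4) `P m` : `∀ c, ∃ c', (∀ u, val c' u = val c (m • u)) ∧ d0 c' = m • d0 c`.   Induction on `m`.
     `m = 0`: `c' = val c 0 • e`.
     `m + 1`: `b j` from `P m` for the basis vector `Pi.single j 1` (`val = x j`): `val (b j) u = x j (m • u)`, `d0 (b j) = m • d0 (single j)`.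
       `q j k := fun i => ∑ j' , ∑ k', μ i j' k' * (b j j' * (single k) k')` = coordinates of `u ↦ x j (m • u) * x k u`;  by (2): `d0 (q j k) = x j 0 • d0 (single k) + x k 0 • m • d0 (single j)`   (`m • 0 = 0`).
       `c' := ∑ i j k, (c i * δ i j k) • q j k`:  `val c' u = val c (m • u + u)`.   `d0 c' = d0 (∑ (c i δ i j k x j 0) • single k) + m • d0 (∑ (c i δ i j k x k 0) • single j) = d0 c + m • d0 c`
       because `∑ i j, c i δ i j k x j 0 = c k` and `∑ i k, c i δ i j k x k 0 = c j`   (`li`: the functions are `u ↦ val c (0 + u)`, `u ↦ val c (u + 0)`).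
 (5) `p • d0 c = 0`:  `c'` from `P p`, `c''` from `P 0`: `val c' u = val c (p • u) = val c 0 = val c'' u`, so `c' = c''`, `p • d0 c = 0 • d0 c = 0`.
 (6) `D (x i t) = E (single i) = E (tr (-t) (tr t (single i))) = d0 (tr t (single i))`     [`li`: `val (tr (-t) (tr t c)) u = val c (t + (-t + u)) = val c u`].

PROOF ACTUALLY USED (helper26; needs `hδ : D (δ i j k) = 0`, does not use `μ`, `e`): `M s b c := ∑ k, δ b c k * x k s` is the translation matrix, `x b (t + s) = ∑ c, M s b c * x c t`, `M (s + s') = M s * M s'`, `M 0 = 1` (`li`);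
`Dv t := (D (x b t))_b` satisfies `Dv (t₁ + t₂) = M t₂ • Dv t₁ + M t₁ • Dv t₂` (Leibniz); so `τ t := M (-t) • Dv t` is additive, `p • τ t = τ (p • t) = τ 0 = 0`, `Dv t = M t • τ t`.
-/

set_option autoImplicit false

namespace Fermat.Agent.S56.FD

namespace HopfAux

variable {R N V : Type*} [CommRing R] [AddCommGroup N] [Module R N] [AddCommGroup V] {n : ℕ}

/-- matrices acting on vectors with entries in a module -/
def mv (A : Matrix (Fin n) (Fin n) R) (w : Fin n → N) : Fin n → N := fun b => ∑ c, A b c • w c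

theorem mv_mul (A B : Matrix (Fin n) (Fin n) R) (w : Fin n → N) : mv (A * B) w = mv A (mv B w) := by
  funext b
  simp only [mv, Matrix.mul_apply, Finset.sum_smul, Finset.smul_sum, mul_smul]
  rw [Finset.sum_comm]

theorem mv_one (w : Fin n → N) : mv (1 : Matrix (Fin n) (Fin n) R) w = w := by
  funext b
  simp [mv, Matrix.one_apply, ite_smul]

theorem mv_add (A : Matrix (Fin n) (Fin n) R) (w w' : Fin n → N) :
    mv A (w + w') = mv A w + mv A w' := by
  funext b
  simp [mv, smul_add, Finset.sum_add_distrib]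

theorem mv_zero (A : Matrix (Fin n) (Fin n) R) : mv A (0 : Fin n → N) = 0 := by
  funext b
  simp [mv]

theorem mv_nsmul (A : Matrix (Fin n) (Fin n) R) (m : ℕ) (w : Fin n → N) :
    mv A (m • w) = m • mv A w := by
  funext b
  simp only [mv, Pi.smul_apply, Finset.smul_sum]
  exact Finset.sum_congr rfl fun c _ => smul_comm _ _ _

variable (x : Fin n → V → R) (δ : Fin n → Fin n → Fin n → R)

/-- the translation matrix -/
def M (s : V) : Matrix (Fin n) (Fin n) R := fun b c => ∑ k, δ b c k * x k s

variable {x δ}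

theorem coef_ext (li : ∀ c : Fin n → R, (∀ t, ∑ i, c i * x i t = 0) → c = 0) {A B : Fin n → R}
    (h : ∀ t, ∑ c, A c * x c t = ∑ c, B c * x c t) : A = B := by
  have h1 := li (fun c => A c - B c) (fun t => by
    simp only [sub_mul, Finset.sum_sub_distrib, h t, sub_self])
  funext c
  exact sub_eq_zero.1 (congrFun h1 c)

theorem x_add (add : ∀ i t t', x i (t + t') = ∑ j, ∑ k, δ i j k * (x j t * x k t')) (s t : V)
    (b : Fin n) : x b (t + s) = ∑ c, M x δ s b c * x c t := by
  rw [add]
  refine Finset.sum_congr rfl fun j _ => ?_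
  rw [M, Finset.sum_mul]
  refine Finset.sum_congr rfl fun k _ => ?_
  ring

theorem M_add (li : ∀ c : Fin n → R, (∀ t, ∑ i, c i * x i t = 0) → c = 0)
    (add : ∀ i t t', x i (t + t') = ∑ j, ∑ k, δ i j k * (x j t * x k t')) (s s' : V) :
    M x δ (s + s') = M x δ s * M x δ s' := by
  funext b
  refine coef_ext li fun t => ?_
  rw [← x_add add, ← add_assoc, add_right_comm, x_add add]
  simp only [x_add add s' t, Matrix.mul_apply, Finset.mul_sum, Finset.sum_mul]
  rw [Finset.sum_comm]
  refine Finset.sum_congr rfl fun c _ => Finset.sum_congr rfl fun c' _ => ?_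
  ring

theorem M_zero (li : ∀ c : Fin n → R, (∀ t, ∑ i, c i * x i t = 0) → c = 0)
    (add : ∀ i t t', x i (t + t') = ∑ j, ∑ k, δ i j k * (x j t * x k t')) : M x δ (0 : V) = 1 := by
  funext b
  refine coef_ext li fun t => ?_
  rw [← x_add add, add_zero]
  simp [Matrix.one_apply]

theorem M_left (li : ∀ c : Fin n → R, (∀ t, ∑ i, c i * x i t = 0) → c = 0)
    (add : ∀ i t t', x i (t + t') = ∑ j, ∑ k, δ i j k * (x j t * x k t')) (s : V) (b d : Fin n) :
    ∑ j, δ b j d * x j s = M x δ s b d := by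
  have := coef_ext li (A := fun d => ∑ j, δ b j d * x j s) (B := M x δ s b) fun t => by
    rw [← x_add add, add_comm, add, Finset.sum_comm]
    refine Finset.sum_congr rfl fun k _ => ?_
    rw [Finset.sum_mul]
    refine Finset.sum_congr rfl fun j _ => ?_
    ring
  exact congrFun this d

theorem leib (D : Derivation ℤ R N) (li : ∀ c : Fin n → R, (∀ t, ∑ i, c i * x i t = 0) → c = 0)
    (add : ∀ i t t', x i (t + t') = ∑ j, ∑ k, δ i j k * (x j t * x k t'))
    (hδ : ∀ i j k, D (δ i j k) = 0) (t1 t2 : V) :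
    (fun b => D (x b (t1 + t2))) =
      mv (M x δ t2) (fun b => D (x b t1)) + mv (M x δ t1) (fun b => D (x b t2)) := by
  funext b
  rw [add, map_sum]
  simp only [map_sum, Derivation.leibniz, hδ, smul_zero, add_zero, smul_add, Finset.sum_add_distrib,
    Pi.add_apply, mv]
  rw [add_comm]
  congr 1
  · refine Finset.sum_congr rfl fun j _ => ?_
    rw [M, Finset.sum_smul]
    refine Finset.sum_congr rfl fun k _ => ?_
    rw [mul_smul]
  · rw [Finset.sum_comm]
    refine Finset.sum_congr rfl fun k _ => ?_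
    rw [← M_left li add, Finset.sum_smul]
    refine Finset.sum_congr rfl fun j _ => ?_
    rw [mul_smul]

end HopfAux

open HopfAux in
theorem hopf_der {R N V : Type*} [CommRing R] [AddCommGroup N] [Module R N] [AddCommGroup V]
    (D : Derivation ℤ R N) (p : ℕ) (hpV : ∀ t : V, p • t = 0) {n : ℕ} (x : Fin n → V → R)
    (li : ∀ c : Fin n → R, (∀ t, ∑ i, c i * x i t = 0) → c = 0)
    (δ : Fin n → Fin n → Fin n → R)
    (add : ∀ i t t', x i (t + t') = ∑ j, ∑ k, δ i j k * (x j t * x k t'))
    (hδ : ∀ i j k, D (δ i j k) = 0)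
    (μ : Fin n → Fin n → Fin n → R) (_hμ : ∀ i j k, D (μ i j k) = 0)
    (_mul : ∀ j k t, x j t * x k t = ∑ i, μ i j k * x i t)
    (e : Fin n → R) (_one : ∀ t, ∑ i, e i * x i t = 1) :
    ∀ i t, p • D (x i t) = 0 := by
  set Dv : V → Fin n → N := fun t b => D (x b t) with hDv
  set τ : V → Fin n → N := fun t => mv (M x δ (-t)) (Dv t) with hτ
  have hadd : ∀ t1 t2, τ (t1 + t2) = τ t1 + τ t2 := by
    intro t1 t2
    have h1 : Dv (t1 + t2) = mv (M x δ t2) (Dv t1) + mv (M x δ t1) (Dv t2) := leib D li add hδ t1 t2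
    simp only [hτ]
    rw [h1, mv_add, ← mv_mul, ← mv_mul, ← M_add li add, ← M_add li add]
    have e1 : -(t1 + t2) + t2 = -t1 := by abel
    have e2 : -(t1 + t2) + t1 = -t2 := by abel
    rw [e1, e2]
  let T : V →+ (Fin n → N) := AddMonoidHom.mk' τ hadd
  intro i t
  have h0 : p • τ t = 0 := by
    have : p • T t = 0 := by rw [← map_nsmul, hpV, map_zero]
    exact this
  have h1 : Dv t = mv (M x δ t) (τ t) := by
    simp only [hτ]
    rw [← mv_mul, ← M_add li add, add_neg_cancel, M_zero li add, mv_one]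
  have h2 : p • Dv t = 0 := by rw [h1, ← mv_nsmul, h0, mv_zero]
  exact congrFun h2 i

end Fermat.Agent.S56.FD
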