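import Fermat.Agent.S56.FD.G

/-!
# S56 / FD / T      key [S56/FD-T]      (~300 lines; uses only the STATEMENTS of FD/Apx.lean, FD/G.lean)

`π ∈ Fx H`, `π^e = -p`, `p ∤ e`, `e ≥ 2` (false for `e = 1`), `π ≡ T(ϖ)` mod `p^M`, `deg T < E`.     CLAIM  `v(T'(ϖ)) = s - (e-1)/e`,  `s = v(G'(ϖ))`.
PROOF.  `w π = 1/e` (`FK.w_varpi`).   `h.val π`: `1/e = m/E`, so `E = m * e`, `m ≥ 1`.     `τ := ev T ϖ = π - η`, `GE η M`, `M ≥ 1` (`hM`, `w E ≥ 0`), so `EQ τ (1/e)`.
 (a) coefficients of `T`: `term_GE` with `a = 1/e = m/E`:  `w (t_k) + k/E ≥ m/E`; for `k < m`: `w (t_k) > 0`, so `GE (t_k) 1` (`w_O0`).  `t_m` is a unit (`EQ (t_m) 0`): otherwise all terms `t_k ϖ^k` are `GT (m/E)`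
     (`k < m`: `≥ 1 + k/E > 1/e = m/E` as `e ≥ 2`; `k = m`: `≥ 1 + m/E`; `k > m`: `≥ k/E`), so `GT τ (1/e)` (`ev_eq_sum`, `GT_sum`): contradiction.
 (b) `N := T^e + C p`, `Q := N /ₘ G`, `r := N %ₘ G`, `N = r + G * Q`, `natDegree r < E`.   `ev N ϖ = τ^e + p = τ^e - π^e` is `GE M` (`GE_pow_sub_pow`).  So `GE (ev r ϖ) M`, all coefficients of `r` are `GE M` (`coeff_GE`), `GE (ev r' ϖ) M`.
 (c) `Q.coeff 0` is a unit.   `ρ : O0 p →+* kk (wq p)` := `(rs (wq p)).comp (inclusion O0 → OO)`;  `ρ c = 0 ↔ GT c 0`.   In `κ[X]`, `κ = kk (wq p)` (a field): `G.map ρ = X^E` (monic, `low`), `r.map ρ = 0`, `(C p).map ρ = 0`,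
     `T.map ρ = X^m * T1` (`Polynomial.X_pow_dvd_iff`, (a)), `T1.coeff 0 = ρ t_m ≠ 0` (`coeff_X_pow_mul'`).   `X^E * T1^e = (T.map ρ)^e = X^E * Q.map ρ` ⟹ `Q.map ρ = T1^e` (`mul_left_cancel₀`) ⟹ `ρ (Q.coeff 0) = (ρ t_m)^e ≠ 0`  (`coeff_zero_eq_eval_zero`, `eval_pow`).
     Hence `EQ (ev Q ϖ) 0`:  `ev Q ϖ = Q.coeff 0 + ϖ * (..)`  (`ev_sub_GE`-like: `ev Q ϖ - ev Q 0` is `GE (1/E)`, `ev Q 0 = Q.coeff 0`).
 (d) derivative:  `N' = C e * T^(e-1) * T'` (`derivative_pow`, `derivative_C`),  `N' = r' + G' Q + G Q'`.   At `ϖ`:  `e τ^(e-1) ev T' ϖ = ev r' ϖ + ev G' ϖ * ev Q ϖ + ev G ϖ * ev Q' ϖ`.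
     RHS: `EQ _ s` (`EQ.mul`, the two other terms are `GE M`, `M > s` by `IsG.der_lt`; `EQ.add_GT`).  LHS: `EQ (e : Qb) 0` (`FK.natCast_EQ`), `EQ (τ^(e-1)) ((e-1)/e)`.   `EQ.of_mul_eq_left`.
-/

set_option autoImplicit false

noncomputable section

namespace Fermat.Agent.S56.FD

open Fermat.Agent.S05 Fermat.Agent.S55 Fermat.Agent.S55.B ExtCitation Polynomial

variable {p : Nat.Primes} {H : Subgroup GQ} {ϖ : Qb} {E M : ℕ} {G : (O0 p)[X]}

/-- the residue map on `O0` -/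
def rho (p : Nat.Primes) : O0 p →+* kk (wq p) where
  toFun c := rs (wq p) ⟨(c : Qb), c.2.1⟩
  map_one' := map_one (rs (wq p))
  map_mul' a b := by rw [← map_mul]; rfl
  map_zero' := map_zero (rs (wq p))
  map_add' a b := by rw [← map_add]; rfl

theorem rho_eq_zero_iff (c : O0 p) : rho p c = 0 ↔ (wq p).GT (c : Qb) 0 :=
  rs_eq_zero_iff (wq p) ⟨(c : Qb), c.2.1⟩

theorem rho_ne_zero_iff (c : O0 p) : rho p c ≠ 0 ↔ (wq p).EQ (c : Qb) 0 :=
  rs_ne_zero_iff (wq p) ⟨(c : Qb), c.2.1⟩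

theorem GE_one_of_GT (c : O0 p) (h : (wq p).GT (c : Qb) 0) : (wq p).GE (c : Qb) 1 := by
  by_cases h0 : (c : Qb) = 0
  · exact Or.inl h0
  · obtain ⟨k, hk⟩ := w_O0 c h0
    right
    have h1 := h.lt_w h0
    rw [hk] at h1 ⊢
    have : 0 < k := by exact_mod_cast h1
    exact_mod_cast this

theorem key_T (h : Unif p H ϖ E) (hG : IsG p ϖ E M G) (hM : (wq p).w (E : Qb) + 1 ≤ M) {π : Qb} {e : ℕ}
    (he : ¬ (p : ℕ) ∣ e) (he2 : 2 ≤ e) (hπ : π ^ e = -((p : ℕ) : Qb)) (hπH : π ∈ Fx H) (T : (O0 p)[X])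
    (hTd : T.natDegree < E) (hT : (wq p).GE (π - ev T ϖ) M) :
    (wq p).EQ (ev (derivative T) ϖ) ((wq p).w (ev (derivative G) ϖ) - ((e : ℝ) - 1) / e) := by
  classical
  have hE := h.pos
  have hw := h.w
  have hER : (0 : ℝ) < E := by exact_mod_cast hE
  have heR : (2 : ℝ) ≤ e := by exact_mod_cast he2
  have heR0 : (0 : ℝ) < e := by linarith
  have he0 : e ≠ 0 := by omega
  have hϖ0 : (wq p).GE ϖ 0 := h.GE_unif
  have hπw : (wq p).EQ π (1 / (e : ℝ)) := FK.w_varpi he0 hπ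
  -- `E = m * e`
  obtain ⟨k, hk⟩ := h.val π hπH hπw.1
  rw [hπw.2] at hk
  have hkE : (E : ℝ) = k * e := by
    field_simp at hk
    linarith
  have hkpos : 0 < k := by
    by_contra hneg
    push Not at hneg
    have h1 : (k : ℝ) ≤ 0 := by exact_mod_cast hneg
    nlinarith
  obtain ⟨m, rfl⟩ := Int.eq_ofNat_of_zero_le hkpos.le
  have hm : 0 < m := by exact_mod_cast hkpos
  have hEm : E = m * e := by exact_mod_cast hkE
  have hme : (1 : ℝ) / e = m / E := by
    rw [hk, Int.cast_natCast]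
  have hwE : 0 ≤ (wq p).w (E : Qb) :=
    (RVal.GE_natCast (v := wq p) E).le_w (by exact_mod_cast hE.ne')
  have hM1 : (1 : ℝ) ≤ M := by linarith
  have h1e : (1 : ℝ) / e < 1 := by
    rw [div_lt_one heR0]
    linarith
  have h1e0 : (0 : ℝ) < 1 / e := by positivity
  set τ := ev T ϖ with hτ
  have hτw : (wq p).EQ τ (1 / (e : ℝ)) := by
    have := hπw.sub_GT (hT.GT (by linarith))
    rwa [sub_sub_cancel] at this
  -- (a)
  have hterm : ∀ k, (wq p).GE ((T.coeff k : Qb) * ϖ ^ k) (1 / (e : ℝ)) :=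
    term_GE hE hw T hTd (hτw.GE le_rfl)
  have hlow : ∀ k < m, (wq p).GT (T.coeff k : Qb) 0 := by
    intro k hk
    by_cases h0 : (T.coeff k : Qb) = 0
    · exact Or.inl h0
    · right
      have h1 := (hterm k).le_w (mul_ne_zero h0 (pow_ne_zero _ hw.1))
      have h2 : (wq p).EQ ((T.coeff k : Qb) * ϖ ^ k)
          ((wq p).w (T.coeff k : Qb) + k * (1 / (E : ℝ))) := (RVal.EQ_self h0).mul (hw.pow k)
      rw [h2.2, hme] at h1
      have h3 : (k : ℝ) < m := by exact_mod_cast hk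
      have h4 : (k : ℝ) * (1 / E) < m / E := by
        rw [mul_one_div]
        exact div_lt_div_of_pos_right h3 hER
      linarith
  have hunit : (wq p).EQ (T.coeff m : Qb) 0 := by
    by_contra hcon
    have hgt : (wq p).GT (T.coeff m : Qb) 0 := (GT_iff_not_EQ _ (O0_GE _)).2 hcon
    have hlow' : ∀ k ≤ m, (wq p).GT (T.coeff k : Qb) 0 := by
      intro k hk
      rcases hk.lt_or_eq with hk | rfl
      · exact hlow k hk
      · exact hgt
    have h5 : (wq p).GT τ (1 / (e : ℝ)) := by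
      rw [hτ, ev_eq_sum]
      refine GT_sum _ _ _ _ fun k _ => ?_
      rcases le_or_gt k m with hk | hk
      · have h6 := (GE_one_of_GT _ (hlow' k hk)).mul (hϖ0.pow k)
        exact h6.GT (by simpa using h1e)
      · have h6 := (O0_GE (T.coeff k)).mul ((hw.pow k).GE le_rfl)
        refine h6.GT ?_
        rw [hme, zero_add, mul_one_div]
        exact div_lt_div_of_pos_right (by exact_mod_cast hk) hER
    have := h5.lt_w hτw.1
    rw [hτw.2] at this
    exact lt_irrefl _ this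
  -- (b)
  set N : (O0 p)[X] := T ^ e + C ((p : ℕ) : O0 p) with hN
  have hG1 : G ≠ 1 := by
    intro h
    have := hG.deg
    rw [h, natDegree_one] at this
    omega
  have hdiv := modByMonic_add_div N G
  set r := N %ₘ G with hr
  set Q := N /ₘ G with hQ
  have hrdeg : r.natDegree < E := by
    have := natDegree_modByMonic_lt N hG.monic hG1
    rwa [hG.deg] at this
  have hNev : (wq p).GE (ev N ϖ) M := by
    have e1 : ev N ϖ = τ ^ e - π ^ e := by
      rw [hN, ev_add, ev_pow, ev_C, coe_natCast_O0, hπ]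
      ring
    rw [e1]
    refine GE_pow_sub_pow _ (hτw.GE h1e0.le) (hπw.GE h1e0.le) ?_ e
    have := hT.neg
    rwa [neg_sub] at this
  have hrev : (wq p).GE (ev r ϖ) M := by
    have e1 : ev r ϖ = ev N ϖ - ev G ϖ * ev Q ϖ := by
      rw [← hdiv, ev_add, ev_mul]; ring
    rw [e1]
    refine hNev.sub ?_
    simpa using hG.small.mul (ev_GE Q hϖ0)
  have hrc := coeff_GE hE hw r hrdeg hrev
  have hr' : (wq p).GE (ev (derivative r) ϖ) M := ev_der_GE r hϖ0 hrc
  -- (c)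
  have hGE1 : G.coeff E = 1 := by
    have := hG.monic.coeff_natDegree
    rwa [hG.deg] at this
  have hGmap : G.map (rho p) = X ^ E := by
    ext i
    rw [coeff_map, coeff_X_pow]
    rcases lt_trichotomy i E with hi | hi | hi
    · rw [if_neg hi.ne, rho_eq_zero_iff]
      exact (hG.low i hi).GT one_pos
    · rw [if_pos hi, hi, hGE1, map_one]
    · rw [if_neg hi.ne', coeff_eq_zero_of_natDegree_lt (by rw [hG.deg]; exact hi), map_zero]
  have hrmap : r.map (rho p) = 0 := by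
    ext i
    rw [coeff_map, coeff_zero, rho_eq_zero_iff]
    exact (hrc i).GT (by linarith)
  have hpmap : rho p ((p : ℕ) : O0 p) = 0 := by
    rw [rho_eq_zero_iff, coe_natCast_O0]
    exact gAux_EQ_p.GT one_pos
  obtain ⟨T1, hT1⟩ : X ^ m ∣ T.map (rho p) := by
    rw [X_pow_dvd_iff]
    intro d hd
    rw [coeff_map, rho_eq_zero_iff]
    exact hlow d hd
  have hT1c : T1.coeff 0 = rho p (T.coeff m) := by
    have := coeff_X_pow_mul T1 m 0
    rw [← hT1, zero_add, coeff_map] at this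
    exact this.symm
  have hQmap : Q.map (rho p) = T1 ^ e := by
    have h1 : N.map (rho p) = X ^ E * T1 ^ e := by
      rw [hN, Polynomial.map_add, Polynomial.map_pow, map_C, hpmap, map_zero, add_zero, hT1, mul_pow,
        ← pow_mul, ← hEm]
    have h2 : N.map (rho p) = X ^ E * Q.map (rho p) := by
      rw [← hdiv, Polynomial.map_add, Polynomial.map_mul, hrmap, hGmap, zero_add]
    exact mul_left_cancel₀ (pow_ne_zero _ X_ne_zero) (h2.symm.trans h1)
  have hQ0 : (wq p).EQ (Q.coeff 0 : Qb) 0 := by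
    rw [← rho_ne_zero_iff]
    have h1 : (Q.map (rho p)).coeff 0 = (T1.coeff 0) ^ e := by
      rw [hQmap, coeff_zero_eq_eval_zero, eval_pow, ← coeff_zero_eq_eval_zero]
    rw [coeff_map] at h1
    rw [h1, hT1c]
    exact pow_ne_zero _ ((rho_ne_zero_iff _).2 hunit)
  have hQev : (wq p).EQ (ev Q ϖ) 0 := by
    have h1 := ev_sub_GE Q hϖ0 (RVal.GE_zero 0) (a := 1 / (E : ℝ))
      (by rw [sub_zero]; exact hw.GE le_rfl)
    have h2 : ev Q 0 = (Q.coeff 0 : Qb) := eval₂_at_zero _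
    rw [h2] at h1
    have := hQ0.add_GT (h1.GT (by positivity))
    rwa [add_sub_cancel] at this
  -- (d)
  have hder : ev (derivative T) ϖ * ((e : Qb) * τ ^ (e - 1)) =
      ev (derivative G) ϖ * ev Q ϖ + (ev (derivative r) ϖ + ev G ϖ * ev (derivative Q) ϖ) := by
    have h1 : derivative N = C ((e : ℕ) : O0 p) * T ^ (e - 1) * derivative T := by
      rw [hN, derivative_add, derivative_pow, derivative_C, add_zero]
    have h2 : derivative N = derivative r + (derivative G * Q + G * derivative Q) := by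
      rw [← hdiv, derivative_add, derivative_mul]
    have h3 := congrArg (fun f => ev f ϖ) (h1.symm.trans h2)
    simp only [ev_add, ev_mul, ev_pow, ev_C, coe_natCast_O0] at h3
    linear_combination h3
  have hs : (wq p).w (ev (derivative G) ϖ) < M := lt_of_lt_of_le (hG.der_lt hE hw) hM
  have hR : (wq p).EQ (ev (derivative G) ϖ * ev Q ϖ +
      (ev (derivative r) ϖ + ev G ϖ * ev (derivative Q) ϖ)) ((wq p).w (ev (derivative G) ϖ)) := by
    have h1 : (wq p).EQ (ev (derivative G) ϖ * ev Q ϖ) ((wq p).w (ev (derivative G) ϖ)) := by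
      simpa using (RVal.EQ_self (hG.der_ne hE hw)).mul hQev
    refine h1.add_GT (RVal.GT.add (hr'.GT hs) ?_)
    exact (hG.small.mul (ev_GE _ hϖ0)).GT (by linarith)
  have hL : (wq p).EQ ((e : Qb) * τ ^ (e - 1)) (((e : ℝ) - 1) / e) := by
    have := (FK.natCast_EQ he).mul (hτw.pow (e - 1))
    refine this.of_eq ?_
    rw [Nat.cast_sub (by omega), Nat.cast_one]
    ring
  exact RVal.EQ.of_mul_eq_left hder hL hR

end Fermat.Agent.S56.FD
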