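import Fermat.Agent.S56.FD.Der
import Fermat.Agent.S56.FD.Hopf
import Fermat.Agent.S56.FD.T
import Fermat.Agent.S56.FD.Fin
import Fermat.Agent.S56.Flat.FL.Basic

/-!
# S56 / FD / Key : assembly of (KEY)      (helper17)
-/

set_option autoImplicit false

noncomputable section

namespace Fermat.Agent.S56.FD

open Fermat.Agent.S05 Fermat.Agent.S55 Fermat.Agent.S55.B ExtCitation Polynomial
open Fermat.Agent.S56.FK

variable {p : Nat.Primes}

/-- the ideal `{v ≥ a}` of the ring of all integers -/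
def idl (p : Nat.Primes) (a : ℝ) : Ideal (OO (wq p)) where
  carrier := {x | (wq p).GE (x : Qb) a}
  add_mem' := fun ha hb => RVal.GE.add ha hb
  zero_mem' := RVal.GE_zero a
  smul_mem' := by
    intro c x hx
    have h1 : (wq p).GE ((c : Qb) * (x : Qb)) (0 + a) := RVal.GE.mul c.2 hx
    rw [zero_add] at h1
    exact h1

theorem mem_idl {a : ℝ} {x : OO (wq p)} : x ∈ idl p a ↔ (wq p).GE (x : Qb) a := Iff.rfl

/-- `O0 → OO` -/
def phi (p : Nat.Primes) : O0 p →+* OO (wq p) :=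
  (O0 p).subtype.codRestrict (OO (wq p)) (fun c => c.2.1)

theorem coe_eval₂_phi (f : (O0 p)[X]) (z : OO (wq p)) :
    ((f.eval₂ (phi p) z : OO (wq p)) : Qb) = ev f (z : Qb) := by
  have := Polynomial.hom_eval₂ f (phi p) (OO (wq p)).subtype z
  exact this

/-- the context: uniformiser, approximate Eisenstein polynomial, precision -/
structure Ctx (p : Nat.Primes) where
  H : Subgroup GQ
  ϖ : Qb
  E : ℕ
  M : ℕ
  G : (O0 p)[X]
  h : Unif p H ϖ E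
  hG : IsG p ϖ E M G
  hM : (wq p).w (E : Qb) + 1 ≤ M

namespace Ctx

variable (c : Ctx p)

def s : ℝ := (wq p).w (ev (derivative c.G) c.ϖ)

def ϖ' : OO (wq p) := ⟨c.ϖ, c.h.w.GE (by positivity)⟩

theorem s_lt : c.s < c.M := lt_of_lt_of_le (c.hG.der_lt c.h.pos c.h.w) c.hM

theorem one_le_M : (1 : ℝ) ≤ c.M := by
  have h1 : (c.E : Qb) ≠ 0 := by exact_mod_cast c.h.pos.ne'
  have h2 := (RVal.GE_natCast (v := wq p) c.E).le_w h1
  linarith [c.hM]

theorem hle : idl p c.M ≤ idl p c.s := fun _ hx => RVal.GE.mono hx c.s_lt.le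

theorem wd : ∀ f : (O0 p)[X], f.eval₂ (phi p) c.ϖ' ∈ idl p c.M →
    (derivative f).eval₂ (phi p) c.ϖ' ∈ idl p c.s := by
  intro f hf
  rw [mem_idl, coe_eval₂_phi] at *
  exact c.hG.wd c.h.pos c.h.w c.hM f hf

abbrev R : Subring (OO (wq p)) := apxRing (phi p) c.ϖ' (idl p c.M)

abbrev N : Type := apxMod (phi p) c.ϖ' (idl p c.M) (idl p c.s)

def D : Derivation ℤ c.R c.N := apxDer c.hle c.wd

/-- integral elements of `Fx H` lie in `R` -/
def toR (y : Qb) (hy : y ∈ Fx c.H) (hy0 : (wq p).GE y 0) : c.R := ⟨⟨y, hy0⟩, by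
  obtain ⟨f, -, hf⟩ := c.h.apx hy hy0 c.M
  refine ⟨f, ?_⟩
  rw [mem_idl]
  have : (((⟨y, hy0⟩ : OO (wq p)) - f.eval₂ (phi p) c.ϖ' : OO (wq p)) : Qb) = y - ev f c.ϖ :=
    congrArg (fun t => y - t) (coe_eval₂_phi f c.ϖ')
  rw [this]
  exact hf⟩

@[simp] theorem coe_toR (y : Qb) (hy : y ∈ Fx c.H) (hy0 : (wq p).GE y 0) :
    (((c.toR y hy hy0 : c.R) : OO (wq p)) : Qb) = y := rfl

theorem ext_R {a b : c.R} (h : ((a : OO (wq p)) : Qb) = ((b : OO (wq p)) : Qb)) : a = b :=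
  Subtype.ext (Subtype.ext h)

/-- constants -/
theorem D_const (y : Qb) (hy : y ∈ Fx c.H) (hy0 : (wq p).GE y 0) (hI : ∀ σ ∈ Iq p, σ y = y) :
    c.D (c.toR y hy hy0) = 0 := by
  have : c.toR y hy hy0 = apxC (phi p) c.ϖ' (idl p c.M) ⟨y, hy0, hI⟩ := c.ext_R rfl
  rw [this]
  exact apxDer_C c.hle c.wd _

theorem mk_eq_zero_iff (z : c.R) :
    apxMk (phi p) c.ϖ' (idl p c.M) (idl p c.s) z = 0 ↔ (wq p).GE ((z : OO (wq p)) : Qb) c.s :=
  apxMk_eq_zero_iff _ _ _ _ z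

theorem D_congr (y y' : c.R) (h : (wq p).GE (((y : OO (wq p)) : Qb) - ((y' : OO (wq p)) : Qb)) c.M) :
    c.D y = c.D y' := apxDer_congr c.hle c.wd y y' h

theorem coe_eval₂_C (U : (O0 p)[X]) (z : c.R) :
    (((U.eval₂ (apxC (phi p) c.ϖ' (idl p c.M)) z : c.R) : OO (wq p)) : Qb)
      = ev U ((z : OO (wq p)) : Qb) := by
  have h1 := Polynomial.hom_eval₂ U (apxC (phi p) c.ϖ' (idl p c.M)) c.R.subtype z
  have h2 : ((U.eval₂ (apxC (phi p) c.ϖ' (idl p c.M)) z : c.R) : OO (wq p))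
      = U.eval₂ (phi p) (z : OO (wq p)) := h1
  rw [h2, coe_eval₂_phi]

theorem D_eval₂ (U : (O0 p)[X]) (z : c.R) :
    c.D (U.eval₂ (apxC (phi p) c.ϖ' (idl p c.M)) z)
      = (derivative U).eval₂ (apxC (phi p) c.ϖ' (idl p c.M)) z • c.D z :=
  apxDer_eval₂ c.hle c.wd U z

theorem D_apply (y : c.R) (f : (O0 p)[X]) (hf : (wq p).GE (((y : OO (wq p)) : Qb) - ev f c.ϖ) c.M) :
    c.D y = apxMk (phi p) c.ϖ' (idl p c.M) (idl p c.s)
      (polyMem (phi p) c.ϖ' (idl p c.M) (derivative f)) := by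
  apply apxDer_apply c.hle c.wd y f
  rw [mem_idl]
  have : (((y : OO (wq p)) - f.eval₂ (phi p) c.ϖ' : OO (wq p)) : Qb)
      = ((y : OO (wq p)) : Qb) - ev f c.ϖ :=
    congrArg (fun t => ((y : OO (wq p)) : Qb) - t) (coe_eval₂_phi f c.ϖ')
  rw [this]
  exact hf


abbrev cls : c.R →+* c.N := apxMk (phi p) c.ϖ' (idl p c.M) (idl p c.s)

abbrev cst : O0 p →+* c.R := apxC (phi p) c.ϖ' (idl p c.M)

theorem p_smul_mk (z : c.R) (hz : (wq p).GE ((z : OO (wq p)) : Qb) (c.s - 1)) :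
    (p : ℕ) • c.cls z = 0 := by
  rw [← map_nsmul, c.mk_eq_zero_iff]
  have h1 : ((((p : ℕ) • z : c.R) : OO (wq p)) : Qb) = ((p : ℕ) : Qb) * ((z : OO (wq p)) : Qb) := by
    rw [nsmul_eq_mul]; push_cast; rfl
  rw [h1]
  have h2 : (wq p).GE (((p : ℕ) : Qb)) 1 := Or.inr (le_of_eq (wq_q p).symm)
  exact (h2.mul hz).mono (by linarith)

variable {c} {π ζ : Qb}

theorem two_le_ee : 2 ≤ ee p := by
  have h2 := p.2.two_le
  have : 4 ≤ (p : ℕ) ^ 2 := by nlinarith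
  unfold ee
  omega

theorem unifF (hT : TD p π ζ) : Unif p (JJ p π) π (ee p) where
  le := stab_le _ _
  mem := mem_Fx_stab _ _
  pos := ee_pos
  w := w_pi' hT
  val := fun _ ha ha0 => val_group hT (mem_Fx.1 ha) ha0

theorem pi_mem (hH : c.H ≤ JJ p π) : π ∈ Fx c.H := mem_Fx.2 fun _ hσ => (hH hσ).2

theorem pi_GE (hT : TD p π ζ) : (wq p).GE π 0 := (w_pi' hT).GE (by positivity)

/-- the derivative of `π` -/
theorem exists_T (hT : TD p π ζ) (hH : c.H ≤ JJ p π) :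
    ∃ T : (O0 p)[X], c.D (c.toR π (pi_mem hH) (pi_GE hT))
        = c.cls (polyMem (phi p) c.ϖ' (idl p c.M) (derivative T)) ∧
      (wq p).EQ (ev (derivative T) c.ϖ) (c.s - ((ee p : ℝ) - 1) / ee p) := by
  obtain ⟨T, hTd, hT'⟩ := c.h.apx (pi_mem hH) (pi_GE hT) c.M
  exact ⟨T, c.D_apply _ T hT', key_T c.h c.hG c.hM not_dvd_ee two_le_ee hT.hπ (pi_mem hH) T hTd hT'⟩

theorem ee_frac : ((ee p : ℝ) - 1) / ee p ≤ 1 := by
  have : (0 : ℝ) < ee p := by exact_mod_cast (ee_pos (p := p))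
  rw [div_le_one this]
  linarith

theorem p_smul_D_pi (hT : TD p π ζ) (hH : c.H ≤ JJ p π) :
    (p : ℕ) • c.D (c.toR π (pi_mem hH) (pi_GE hT)) = 0 := by
  obtain ⟨T, h1, h2⟩ := exists_T hT hH
  rw [h1]
  apply c.p_smul_mk
  have h3 : (((polyMem (phi p) c.ϖ' (idl p c.M) (derivative T) : c.R) : OO (wq p)) : Qb)
      = ev (derivative T) c.ϖ := coe_eval₂_phi _ _
  rw [h3]
  exact h2.GE (by linarith [ee_frac (p := p)])

/-- elements of `O_F` -/
theorem exists_A (hT : TD p π ζ) (hH : c.H ≤ JJ p π) (y : Qb) (hy : ∀ σ ∈ JJ p π, σ y = y)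
    (hy0 : (wq p).GE y 0) :
    ∃ A : (O0 p)[X], A.natDegree < ee p ∧ (wq p).GE (y - ev A π) c.M ∧
      c.D (c.toR y (mem_Fx.2 fun σ hσ => hy σ (hH hσ)) hy0)
        = (derivative A).eval₂ c.cst (c.toR π (pi_mem hH) (pi_GE hT))
          • c.D (c.toR π (pi_mem hH) (pi_GE hT)) := by
  obtain ⟨A, hAd, hA⟩ := (unifF hT).apx (mem_Fx.2 hy) hy0 c.M
  refine ⟨A, hAd, hA, ?_⟩
  rw [← c.D_eval₂]
  apply c.D_congr
  rw [c.coe_eval₂_C]
  exact hA

theorem p_smul_D_OF (hT : TD p π ζ) (hH : c.H ≤ JJ p π) (y : Qb) (hy : ∀ σ ∈ JJ p π, σ y = y)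
    (hy0 : (wq p).GE y 0) :
    (p : ℕ) • c.D (c.toR y (mem_Fx.2 fun σ hσ => hy σ (hH hσ)) hy0) = 0 := by
  obtain ⟨A, -, -, h⟩ := exists_A hT hH y hy hy0
  rw [h, smul_comm, p_smul_D_pi hT hH, smul_zero]


variable (c) in
/-- `R → Qb` -/
def ι : c.R →+* Qb := (OO (wq p)).subtype.comp c.R.subtype

theorem ι_apply (z : c.R) : c.ι z = ((z : OO (wq p)) : Qb) := rfl

@[simp] theorem ι_toR (y : Qb) (hy : y ∈ Fx c.H) (hy0 : (wq p).GE y 0) : c.ι (c.toR y hy hy0) = y := rfl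

theorem ι_inj {a b : c.R} (h : c.ι a = c.ι b) : a = b := c.ext_R h

/-- the main computation in a context -/
theorem main {V : Type} [AddCommGroup V] {act : GQ →* AddMonoid.End V}
    (C : Flat.Coord (p : ℕ) V act) (hpV : ∀ t : V, (p : ℕ) • t = 0) (hT : TD p π ζ)
    (hH : c.H ≤ JJ p π) (hV : ∀ σ ∈ c.H, ∀ t, act σ t = t) (g : V)
    (a : Fin C.n → Qb) (ha : ∀ j, (∀ σ ∈ JJ p π, σ (a j) = a j) ∧ (wq p).GE (a j) 0)
    (hw : (wq p).EQ (∑ j, C.x j g * a j) 0) (κ : GQ → ZMod (p : ℕ))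
    (hκ : ∀ σ ∈ JJ p π, σ (∑ j, C.x j g * a j) = ζ ^ (κ σ).val * ∑ j, C.x j g * a j) :
    IsK p π ζ κ := by
  -- coordinates in R
  have hxF : ∀ j t, C.x j t ∈ Fx c.H := fun j t => mem_Fx.2 fun σ hσ => by rw [C.x_eq, hV σ hσ]
  have hx0 : ∀ j t, (wq p).GE (C.x j t) 0 := C.x_int
  set x' : Fin C.n → V → c.R := fun j t => c.toR (C.x j t) (hxF j t) (hx0 j t) with hx'
  have hιx : ∀ j t, c.ι (x' j t) = C.x j t := fun j t => rfl
  -- constants
  have hcF : ∀ z, Flat.RInt (p : ℕ) z → z ∈ Fx c.H := fun z hz => mem_Fx.2 fun σ _ => hz.fixed σ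
  have hc0 : ∀ z, Flat.RInt (p : ℕ) z → (wq p).GE z 0 := fun z hz => hz.GE
  let cc : ∀ z, Flat.RInt (p : ℕ) z → c.R := fun z hz => c.toR z (hcF z hz) (hc0 z hz)
  have hιc : ∀ z hz, c.ι (cc z hz) = z := fun z hz => rfl
  have hDc : ∀ z hz, c.D (cc z hz) = 0 := fun z hz => c.D_const z _ _ (fun σ _ => hz.fixed σ)
  have hop : ∀ i t, (p : ℕ) • c.D (x' i t) = 0 := by
    refine hopf_der c.D (p : ℕ) hpV x' ?_ (fun i j k => cc _ (C.δ_int i j k)) ?_
      (fun i j k => hDc _ (C.δ_int i j k)) (fun i j k => cc _ (C.μ_int i j k))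
      (fun i j k => hDc _ (C.μ_int i j k)) ?_
      (fun i => cc _ (C.e_int i)) ?_
    · intro c' hc'
      have h1 := Fintype.linearIndependent_iff.1 C.li (fun i => c.ι (c' i)) (by
        funext t
        have h2 := congrArg c.ι (hc' t)
        simp only [map_sum, map_mul, map_zero, hιx] at h2
        simpa using h2)
      funext i
      exact ι_inj (by rw [h1 i]; rfl)
    · intro i t t'
      apply ι_inj
      simp only [map_sum, map_mul, hιx, hιc]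
      exact C.add i t t'
    · intro j k t
      apply ι_inj
      simp only [map_sum, map_mul, hιx, hιc]
      exact C.mul j k t
    · intro t
      apply ι_inj
      simp only [map_sum, map_mul, hιx, hιc, map_one]
      exact C.one t
  set a' : Fin C.n → c.R :=
    fun j => c.toR (a j) (mem_Fx.2 fun σ hσ => (ha j).1 σ (hH hσ)) (ha j).2 with ha'
  have hιa : ∀ j, c.ι (a' j) = a j := fun j => rfl
  have hDa : ∀ j, (p : ℕ) • c.D (a' j) = 0 := fun j => p_smul_D_OF hT hH (a j) (ha j).1 (ha j).2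
  set w' : c.R := ∑ j, x' j g * a' j with hw'
  have hDw : (p : ℕ) • c.D w' = 0 := by
    rw [hw', map_sum, Finset.smul_sum]
    refine Finset.sum_eq_zero fun j _ => ?_
    rw [Derivation.leibniz, smul_add, smul_comm, hDa, smul_zero, smul_comm, hop, smul_zero, add_zero]
  have hDu : c.D (w' ^ (p : ℕ)) = 0 := by
    rw [Derivation.leibniz_pow, smul_comm, hDw, smul_zero]
  set w : Qb := ∑ j, C.x j g * a j with hwdef
  have hιw : c.ι w' = w := by
    rw [hw', hwdef]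
    simp only [map_sum, map_mul, hιx, hιa]
  have hu_fix : ∀ σ ∈ JJ p π, σ (w ^ (p : ℕ)) = w ^ (p : ℕ) := by
    intro σ hσ
    rw [map_pow, hκ σ hσ, mul_pow, ← pow_mul, mul_comm _ (p : ℕ), pow_mul, hT.hζ.pow_eq_one, one_pow,
      one_mul]
  have hu0 : (wq p).EQ (w ^ (p : ℕ)) 0 := by simpa using hw.pow (p : ℕ)
  obtain ⟨U, hUd, hU, hDU⟩ := exists_A hT hH (w ^ (p : ℕ)) hu_fix (hu0.GE le_rfl)
  have e1 : c.toR (w ^ (p : ℕ)) (mem_Fx.2 fun σ hσ => hu_fix σ (hH hσ)) (hu0.GE le_rfl)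
      = w' ^ (p : ℕ) := ι_inj (by rw [map_pow, hιw]; rfl)
  rw [e1, hDu] at hDU
  obtain ⟨T, hT1, hT2⟩ := exists_T hT hH
  rw [hT1] at hDU
  have h4 : c.cls ((derivative U).eval₂ c.cst (c.toR π (pi_mem hH) (pi_GE hT))
      * polyMem (phi p) c.ϖ' (idl p c.M) (derivative T)) = 0 := by
    rw [map_mul]; exact hDU.symm
  rw [c.mk_eq_zero_iff] at h4
  have h5 : (wq p).GE (ev (derivative U) π * ev (derivative T) c.ϖ) c.s := by
    have e2 : ((((derivative U).eval₂ c.cst (c.toR π (pi_mem hH) (pi_GE hT))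
      * polyMem (phi p) c.ϖ' (idl p c.M) (derivative T) : c.R) : OO (wq p)) : Qb)
        = ev (derivative U) π * ev (derivative T) c.ϖ :=
      congrArg₂ (· * ·) (c.coe_eval₂_C _ _) (coe_eval₂_phi _ _)
    rw [← e2]; exact h4
  have h6 := RVal.GE.of_mul_eq_left rfl hT2 h5
  obtain ⟨a0, ha0f, -, ha0⟩ := pth_power hT U hUd (h6.mono (by linarith))
  have h7 : (wq p).GE (w ^ (p : ℕ) - a0 ^ (p : ℕ)) 1 := by
    have : w ^ (p : ℕ) - a0 ^ (p : ℕ) = (w ^ (p : ℕ) - ev U π) + (ev U π - a0 ^ (p : ℕ)) := by ring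
    rw [this]; exact (hU.mono c.one_le_M).add ha0
  have h8 : (wq p).EQ (a0 ^ (p : ℕ)) 0 := by
    have : a0 ^ (p : ℕ) = w ^ (p : ℕ) - (w ^ (p : ℕ) - a0 ^ (p : ℕ)) := by ring
    rw [this]; exact hu0.sub_GT (h7.GT (by norm_num))
  have ha0ne : a0 ≠ 0 := fun h => h8.1 (by rw [h, zero_pow p.2.ne_zero])
  refine ⟨w / a0, ⟨div_ne_zero hw.1 ha0ne, fun σ hσ => ?_⟩, ?_⟩
  · rw [map_div₀, hκ σ hσ, ha0f σ hσ, mul_div_assoc]
  · have : (w / a0) ^ (p : ℕ) - 1 = (w ^ (p : ℕ) - a0 ^ (p : ℕ)) * (a0 ^ (p : ℕ))⁻¹ := by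
      rw [div_pow, sub_mul, mul_inv_cancel₀ h8.1, div_eq_mul_inv]
    rw [this]
    simpa using h7.mul (h8.inv.GE le_rfl)

end Ctx

/-- **(KEY)** : the Kummer character attached to a point of a finite flat group scheme killed by `p`
comes from an element of `1 + p O_F`. -/
theorem key {V : Type} [AddCommGroup V] [Finite V] {act : GQ →* AddMonoid.End V} {π ζ : Qb}
    (C : Flat.Coord (p : ℕ) V act) (hpV : ∀ t : V, (p : ℕ) • t = 0) (hT : TD p π ζ) (g : V)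
    (a : Fin C.n → Qb) (ha : ∀ j, (∀ σ ∈ JJ p π, σ (a j) = a j) ∧ (wq p).GE (a j) 0)
    (hw : (wq p).EQ (∑ j, C.x j g * a j) 0) (κ : GQ → ZMod (p : ℕ))
    (hκ : ∀ σ ∈ JJ p π, σ (∑ j, C.x j g * a j) = ζ ^ (κ σ).val * ∑ j, C.x j g * a j) :
    IsK p π ζ κ := by
  classical
  set f : GQ →* (AddMonoid.End V)ˣ := act.toHomUnits with hf
  haveI : Finite (AddMonoid.End V)ˣ :=
    Finite.of_injective (fun u : (AddMonoid.End V)ˣ => fun v => (u : AddMonoid.End V) v) (by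
      intro u u' h
      apply Units.ext
      apply AddMonoidHom.ext
      exact congrFun h)
  haveI : f.ker.FiniteIndex := Subgroup.finiteIndex_ker f
  have hidx : f.ker.index ≠ 0 := Subgroup.FiniteIndex.index_ne_zero
  set H : Subgroup GQ := JJ p π ⊓ f.ker with hHdef
  have hHJ : H ≤ JJ p π := inf_le_left
  have hHI : H ≤ Iq p := hHJ.trans (stab_le _ _)
  have hV : ∀ σ ∈ H, ∀ t, act σ t = t := fun σ hσ t => by
    have h1 : f σ = 1 := hσ.2
    have h2 : act σ = ((f σ : (AddMonoid.End V)ˣ) : AddMonoid.End V) :=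
      (MonoidHom.coe_toHomUnits act σ).symm
    rw [h2, h1]; rfl
  have hfin : H.relIndex (Iq p) ≠ 0 := by
    apply Subgroup.relIndex_inf_ne_zero
    · rw [relIndex_stab not_dvd_ee hT.hπ]; exact ee_pos.ne'
    · exact ne_zero_of_dvd_ne_zero hidx (Subgroup.relIndex_dvd_index_of_normal _ _)
  obtain ⟨ϖ, E, h⟩ := exists_unif hHI hfin
  obtain ⟨M, hM⟩ := exists_nat_ge ((wq p).w (E : Qb) + 1)
  obtain ⟨G, hG⟩ := h.exists_G M
  exact Ctx.main (c := ⟨H, ϖ, E, M, G, h, hG, hM⟩) C hpV hT hHJ hV g a ha hw κ hκ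

end Fermat.Agent.S56.FD
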